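import Fermat.Agent.S56.Tan.Kmat

/-!
# S56 / Tan / Dict : unramified / unipotent lifts      key `S56/DICT-UNR` (~150 lines)

`h : HasMatrix ρ (liftMat r0 c)` = a basis `b` with `LinearMap.toMatrix b b (ρ.ρ σ) = liftMat r0 c σ = kmat (r0 σ) (c σ * r0 σ)`.
`dict_unram`: `ρ.ρ σ = 1 ⟹ liftMat r0 c σ = 1 = kmat 1 0` (`LinearMap.toMatrix_one`, `kmat_one`, `kmat_inj`): `r0 σ = 1` (`Units.ext`), `c σ * 1 = 0`.
`dict_unip`: `LinearMap.charpoly_toMatrix`: `(liftMat r0 c σ).charpoly = (X - 1) ^ 2`; `Matrix.charpoly_fin_two` (`X ^ 2 - C tr * X + C det`); compare coefficients 1 and 0: `tr = 2`, `det = 1`; `kmat_trace`, `kmat_det_lift`, `kmk_inj` (`(2 : Keps 𝒪) = kmk 2 0`).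
-/

set_option autoImplicit false

open IsLocalRing Fermat.Agent.S53 Fermat.Agent.S55

noncomputable section

namespace Fermat.Agent.S56

/-- a `2 × 2` matrix with characteristic polynomial `(X - 1) ^ 2` has trace `2` and determinant `1` -/
theorem dict_unip_aux {R : Type} [CommRing R] [Nontrivial R] (M : M2 R)
    (h : M.charpoly = (Polynomial.X - 1) ^ 2) : M.trace = 2 ∧ M.det = 1 := by
  rw [Matrix.charpoly_fin_two] at h
  have e : ((Polynomial.X - 1 : Polynomial R) ^ 2) =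
      Polynomial.X ^ 2 - Polynomial.C 2 * Polynomial.X + Polynomial.C 1 := by
    simp only [map_ofNat, map_one]; ring
  rw [e] at h
  constructor
  · have := congrArg (fun f => Polynomial.coeff f 1) h
    simp only [Polynomial.coeff_add, Polynomial.coeff_sub, Polynomial.coeff_X_pow,
      Polynomial.coeff_C_mul, Polynomial.coeff_X_one, Polynomial.coeff_C] at this
    norm_num at this
    exact this
  · have := congrArg (fun f => Polynomial.coeff f 0) h
    simp only [Polynomial.coeff_add, Polynomial.coeff_sub, Polynomial.coeff_X_pow,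
      Polynomial.coeff_C_mul, Polynomial.coeff_X_zero, Polynomial.coeff_C] at this
    norm_num at this
    exact this

variable {𝒪 : Type} [CommRing 𝒪] [IsLocalRing 𝒪]
  {r0 : Gal →* GL (Fin 2) (ResidueField 𝒪)} {c : Gal → Ad0 (ResidueField 𝒪)}
  {ρ : GaloisRepAdic (Keps 𝒪)}

/-- [S56/DICT-UNR] unramified lifts -/
theorem dict_unram (h : HasMatrix ρ (liftMat r0 c)) {q : ℕ} (hq : ρ.IsUnramifiedAt q)
    (P : ValuationSubring (AlgebraicClosure ℚ)) (hP : P.LiesOverPrime q) (σ : Gal)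
    (hσ : σ ∈ P.inertiaSubgroupIn ℚ) : r0 σ = 1 ∧ c σ = 0 := by
  obtain ⟨b, hb⟩ := h
  have h1 := hb σ
  rw [hq P hP σ hσ, LinearMap.toMatrix_one, liftMat_eq, kmat_one, kmat_inj] at h1
  have h2 : r0 σ = 1 := Units.ext h1.1.symm
  refine ⟨h2, Subtype.ext ?_⟩
  have h3 := h1.2
  rw [h2, Units.val_one, Matrix.mul_one] at h3
  exact h3.symm

/-- [S56/DICT-UNR] lifts which are unipotent on inertia -/
theorem dict_unip (h : HasMatrix ρ (liftMat r0 c)) {q : ℕ} (hq : ρ.IsUnipotentOnInertiaAt q)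
    (P : ValuationSubring (AlgebraicClosure ℚ)) (hP : P.LiesOverPrime q) (σ : Gal)
    (hσ : σ ∈ P.inertiaSubgroupIn ℚ) :
    (r0 σ : M2 (ResidueField 𝒪)).trace = 2 ∧ (r0 σ : M2 (ResidueField 𝒪)).det = 1 ∧
      ((c σ : M2 (ResidueField 𝒪)) * (r0 σ : M2 (ResidueField 𝒪))).trace = 0 := by
  obtain ⟨b, hb⟩ := h
  have h1 := hq P hP σ hσ
  have hb' : LinearMap.toMatrix b b (ρ.ρ σ) = (kmat (r0 σ : M2 (ResidueField 𝒪))
      ((c σ : M2 (ResidueField 𝒪)) * (r0 σ : M2 (ResidueField 𝒪))) : M2 (Keps 𝒪)) := hb σ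
  rw [← LinearMap.charpoly_toMatrix (ρ.ρ σ) b, hb'] at h1
  obtain ⟨ht, hd⟩ := dict_unip_aux _ h1
  rw [kmat_trace] at ht
  rw [kmat_det_lift, kmk_one, kmk_inj] at hd
  have h2 : (2 : Keps 𝒪) = kmk 2 0 := by
    have := kmk_natCast (𝒪 := 𝒪) 2
    simpa using this
  rw [h2, kmk_inj] at ht
  exact ⟨ht.1, hd.1, ht.2⟩

end Fermat.Agent.S56
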