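import Fermat.Agent.S56.Tan.Kmat
import Fermat.Agent.S55.A.Mod

/-!
# S56 / Tan / Res : the residual representation in matrix form      key `S56/TAN-RES` (~120 lines)

`exists_resMat`: `S53.exists_hasMatrixRes` gives `r : Gal → M2 k`; `HasMatrixRes.ofResidualGaloisRep` + `HasMatrix.map_one`, `HasMatrix.map_mul` : `r` is multiplicative, so `r σ * r σ⁻¹ = 1 = r σ⁻¹ * r σ`: units.
`exists_level`: `HasMatrix.matCont` (for the field `k`, `maximalIdeal k ^ 1 = ⊥`) or directly `ρbar.factorsThroughFiniteLevel`; `(∀ x ∈ L, σ x = x) ↔ σ ∈ L.fixingSubgroup`.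
`finMod_adRho`: `Ad0 k` is a subtype of the finite type `M2 k`; `p • X = 0` (`CharP`); smooth: on the level of `exists_level` the action is trivial.
-/

set_option autoImplicit false

open IsLocalRing Fermat.Agent.S53 Fermat.Agent.S55

noncomputable section

namespace Fermat.Agent.S56

/-- [S56/TAN-RES] -/
theorem exists_resMat {k : Type} [Field k] (ρbar : ResidualGaloisRep k) :
    ∃ r0 : Gal →* GL (Fin 2) k, HasMatrixRes ρbar (fun σ => (r0 σ : M2 k)) := by
  obtain ⟨r, hr⟩ := exists_hasMatrixRes ρbar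
  have h1 : r 1 = 1 := hr.ofResidualGaloisRep.map_one
  have hm : ∀ σ τ, r (σ * τ) = r σ * r τ := hr.ofResidualGaloisRep.map_mul
  let f : Gal →* M2 k := { toFun := r, map_one' := h1, map_mul' := hm }
  refine ⟨f.toHomUnits, ?_⟩
  exact hr

/-- [S56/TAN-RES] -/
theorem exists_level {k : Type} [Field k] {ρbar : ResidualGaloisRep k} {r0 : Gal →* GL (Fin 2) k}
    (h0 : HasMatrixRes ρbar (fun σ => (r0 σ : M2 k))) :
    ∃ U ∈ lvlQ.sets, ∀ σ ∈ U, r0 σ = 1 := by
  obtain ⟨L, hL, h⟩ := ρbar.factorsThroughFiniteLevel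
  obtain ⟨b, hb⟩ := h0
  refine ⟨L.fixingSubgroup, ⟨L, hL, rfl⟩, fun σ hσ => Units.ext ?_⟩
  have h1 : ρbar.ρ σ = 1 := h σ (fun x hx => (IntermediateField.mem_fixingSubgroup_iff L σ).1 hσ x hx)
  have h2 := hb σ
  rw [h1, LinearMap.toMatrix_one] at h2
  exact h2.symm

/-- [S56/TAN-RES] -/
theorem finMod_adRho {k : Type} [Field k] [Finite k] (p : ℕ) [CharP k p]
    {ρbar : ResidualGaloisRep k} {r0 : Gal →* GL (Fin 2) k}
    (h0 : HasMatrixRes ρbar (fun σ => (r0 σ : M2 k))) : FinMod p lvlQ (adRho r0) := by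
  refine ⟨inferInstance, fun a => Subtype.ext ?_, fun a => ?_⟩
  · ext i j
    show (p • (a : M2 k)) i j = 0
    rw [Matrix.smul_apply, nsmul_eq_mul, CharP.cast_eq_zero, zero_mul]
  · obtain ⟨U, hU, h⟩ := exists_level h0
    refine ⟨U, hU, fun u hu => Subtype.ext ?_⟩
    rw [coe_adRho, h u hu]
    simp

end Fermat.Agent.S56
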