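import Fermat.Agent.S56.Tan.Kmat
import Fermat.Agent.S55.E.Chi

/-!
# S56 / Tan / DictOrd : strictly ordinary lifts      key `S56/DICT-ORD` (~350 lines)

`A = Keps 𝒪`, `h` = basis `b₁` with matrices `r σ = liftMat r0 c σ`.  `hord.2 P hP` : `L = A ∙ b₂ 0` for a basis `b₂`.  `S53.exists_unit_conj b₁ b₂` / `HasMatrix.exists_conj`: `M : (M2 A)ˣ` with
`r' σ := toMatrix b₂ b₂ (ρ σ) = M * r σ * M⁻¹` (or with `M⁻¹`: replace `M`).  In the basis `b₂`, for `σ ∈ D_P`: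
 `ρ σ (b₂ 0) = x • b₂ 0` : `r' σ 0 0 = x`, `r' σ 1 0 = 0`;  `ρ σ (b₂ 1) - z • b₂ 1 ∈ L` : `r' σ 1 1 = z`;  `x - a z ∈ span {p} = ⊥` for `a = (cycloChar p σ).val` (`S55.E.cycloChar_spec`, `n = 1`; `p = 0` in `A`);  `σ ∈ I_P`: `ρ σ (b₂ 1) - b₂ 1 ∈ L` : `r' σ 1 1 = 1`.
`exists_kunit`: `M⁻¹ = kunit g Y₀` i.e. `M⁻¹ = g (1 + ε Y₀)`, `M = (1 - ε Y₀) g⁻¹`.  Then (`kmat_mul`)
 `r' σ = kmat (g⁻¹ r0 g) (g⁻¹ (c σ + r0 σ Y₀' (r0 σ)⁻¹ - Y₀') r0 σ g)` with `Y₀' = g Y₀ g⁻¹`;  put `Y = Y₀' - (tr Y₀' / 2) • 1 ∈ Ad0` (`p ≠ 2`; scalars do not change `r0 σ Y (r0 σ)⁻¹ - Y`).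
With `R = g⁻¹ r0 σ g` (upper triangular, invertible, `R 0 0 = a R 1 1`) and `C = g⁻¹ (c σ + σY - Y) g` (trace `0`):
 `(C R) 1 0 = C 1 0 * R 0 0 = 0 ⟹ C 1 0 = 0`;  `(C R) 0 0 = C 0 0 R 0 0`, `(C R) 1 1 = C 1 1 R 1 1`;  `x = a z` in `k[ε]`: `C 0 0 R 0 0 = a C 1 1 R 1 1 = C 1 1 R 0 0 ⟹ C 0 0 = C 1 1`; trace zero and `2 ≠ 0`: `C 0 0 = C 1 1 = 0`.  `t = C 0 1`.
-/

set_option autoImplicit false

open IsLocalRing Fermat.Agent.S53 Fermat.Agent.S55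

noncomputable section

namespace Fermat.Agent.S56

variable {𝒪 : Type} [CommRing 𝒪] [IsLocalRing 𝒪]
  {r0 : Gal →* GL (Fin 2) (ResidueField 𝒪)} {c : Gal → Ad0 (ResidueField 𝒪)}
  {ρ : GaloisRepAdic (Keps 𝒪)}

section pure

theorem dictOrd_core {K : Type} [Field K] (h2 : (2 : K) ≠ 0) (R C : M2 K) (hR : R.det ≠ 0)
    (hC : C.trace = 0) (a : K) (h10 : R 1 0 = 0) (h00 : R 0 0 = a * R 1 1)
    (hB10 : (C * R) 1 0 = 0) (hB : (C * R) 0 0 = a * (C * R) 1 1) :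
    ∃ t, C = !![0, t; 0, 0] := by
  rw [Matrix.det_fin_two, h10, mul_zero, sub_zero] at hR
  have hR0 : R 0 0 ≠ 0 := left_ne_zero_of_mul hR
  simp only [Matrix.mul_apply, Fin.sum_univ_two, h10, mul_zero, add_zero] at hB10 hB
  have hC10 : C 1 0 = 0 := by
    rcases mul_eq_zero.1 hB10 with h | h
    · exact h
    · exact absurd h hR0
  rw [hC10, zero_mul, zero_add] at hB
  have h01 : C 0 0 = C 1 1 := by
    have : C 0 0 * R 0 0 = C 1 1 * R 0 0 := by rw [hB, h00]; ring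
    exact mul_right_cancel₀ hR0 this
  rw [Matrix.trace_fin_two, ← h01] at hC
  have hC00 : C 0 0 = 0 := by
    have : (2 : K) * C 0 0 = 0 := by rw [two_mul]; exact hC
    exact (mul_eq_zero.1 this).resolve_left h2
  refine ⟨C 0 1, ?_⟩
  ext i j
  fin_cases i <;> fin_cases j <;> simp [hC00, hC10, ← h01]

theorem dictOrd_entries {A V : Type} [CommRing A] [AddCommGroup V] [Module A V]
    (b : Module.Basis (Fin 2) A V) (f : V →ₗ[A] V) (x z : A)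
    (hx : ∀ w ∈ (A ∙ b 0), f w = x • w) (hz : f (b 1) - z • b 1 ∈ (A ∙ b 0)) :
    LinearMap.toMatrix b b f 0 0 = x ∧ LinearMap.toMatrix b b f 1 0 = 0 ∧
      LinearMap.toMatrix b b f 1 1 = z := by
  have h0 : f (b 0) = x • b 0 := hx _ (Submodule.mem_span_singleton_self _)
  obtain ⟨t, ht⟩ := Submodule.mem_span_singleton.1 hz
  have h1 : f (b 1) = t • b 0 + z • b 1 := by rw [ht]; abel
  refine ⟨?_, ?_, ?_⟩
  · rw [LinearMap.toMatrix_apply, h0]; simp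
  · rw [LinearMap.toMatrix_apply, h0]; simp
  · rw [LinearMap.toMatrix_apply, h1]; simp

theorem dictOrd_alg {K : Type} [Field K] (G Gi T Ti Y0 C : M2 K) (hG1 : G * Gi = 1)
    (hG2 : Gi * G = 1) (hT : Ti * T = 1) :
    Gi * T * (G * Y0) + (Gi * (C * T) + (-(Y0 * Gi)) * T) * G =
      (Gi * (C + (T * (G * Y0 * Gi) * Ti - G * Y0 * Gi)) * G) * (Gi * T * G) := by
  have e1 : ∀ X : M2 K, G * (Gi * X) = X := fun X => by rw [← Matrix.mul_assoc, hG1, Matrix.one_mul]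
  have e2 : ∀ X : M2 K, Gi * (G * X) = X := fun X => by rw [← Matrix.mul_assoc, hG2, Matrix.one_mul]
  have e3 : ∀ X : M2 K, Ti * (T * X) = X := fun X => by rw [← Matrix.mul_assoc, hT, Matrix.one_mul]
  simp only [Matrix.mul_add, Matrix.add_mul, Matrix.mul_sub, Matrix.sub_mul, Matrix.mul_assoc,
    Matrix.neg_mul, e1, e2, e3, hG2, Matrix.mul_one]
  abel

theorem dictOrd_scalar {K : Type} [Field K] (T Ti Y : M2 K) (s : K) (hT : T * Ti = 1) :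
    T * (Y - s • (1 : M2 K)) * Ti - (Y - s • (1 : M2 K)) = T * Y * Ti - Y := by
  rw [Matrix.mul_sub, Matrix.sub_mul, Matrix.mul_smul, Matrix.mul_one, Matrix.smul_mul, hT]
  abel

end pure

theorem dictOrd_p_zero (p : ℕ) (hp𝒪 : (p : 𝒪) ∈ maximalIdeal 𝒪) : (p : ResidueField 𝒪) = 0 := by
  have h := (residue_eq_zero_iff _).2 hp𝒪
  rwa [map_natCast] at h

theorem dictOrd_two_ne_zero (p : ℕ) [Fact p.Prime] (hp2 : p ≠ 2)
    (hp𝒪 : (p : 𝒪) ∈ maximalIdeal 𝒪) : (2 : ResidueField 𝒪) ≠ 0 := by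
  intro h2
  have hp : (p : ResidueField 𝒪) = 0 := dictOrd_p_zero p hp𝒪
  obtain ⟨m, hm⟩ := (Fact.out : p.Prime).odd_of_ne_two hp2
  rw [hm] at hp
  push_cast at hp
  rw [h2, zero_mul, zero_add] at hp
  exact one_ne_zero hp

theorem dictOrd_conj (g R0 : GL (Fin 2) (ResidueField 𝒪)) (Y0 C : M2 (ResidueField 𝒪)) :
    (((kunit g Y0)⁻¹ : (M2 (Keps 𝒪))ˣ) : M2 (Keps 𝒪)) *
        kmat (R0 : M2 (ResidueField 𝒪)) (C * (R0 : M2 (ResidueField 𝒪))) *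
          ((kunit g Y0 : (M2 (Keps 𝒪))ˣ) : M2 (Keps 𝒪)) =
      kmat (((g⁻¹ * R0 * g : GL (Fin 2) (ResidueField 𝒪)) : M2 (ResidueField 𝒪)))
        ((((g⁻¹ : GL (Fin 2) (ResidueField 𝒪)) : M2 (ResidueField 𝒪)) *
          (C + ((R0 : M2 (ResidueField 𝒪)) * ((g : M2 (ResidueField 𝒪)) * Y0 *
              ((g⁻¹ : GL (Fin 2) (ResidueField 𝒪)) : M2 (ResidueField 𝒪))) *
              ((R0⁻¹ : GL (Fin 2) (ResidueField 𝒪)) : M2 (ResidueField 𝒪)) -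
            (g : M2 (ResidueField 𝒪)) * Y0 *
              ((g⁻¹ : GL (Fin 2) (ResidueField 𝒪)) : M2 (ResidueField 𝒪)))) *
          (g : M2 (ResidueField 𝒪))) *
          ((g⁻¹ * R0 * g : GL (Fin 2) (ResidueField 𝒪)) : M2 (ResidueField 𝒪))) := by
  show kmat ((g⁻¹ : GL (Fin 2) (ResidueField 𝒪)) : M2 (ResidueField 𝒪))
      (- (Y0 * ((g⁻¹ : GL (Fin 2) (ResidueField 𝒪)) : M2 (ResidueField 𝒪)))) *
        kmat (R0 : M2 (ResidueField 𝒪)) (C * (R0 : M2 (ResidueField 𝒪))) *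
          kmat (g : M2 (ResidueField 𝒪)) ((g : M2 (ResidueField 𝒪)) * Y0) = _
  rw [kmat_mul, kmat_mul, kmat_inj, Units.val_mul, Units.val_mul]
  refine ⟨rfl, ?_⟩
  exact dictOrd_alg _ _ _ _ _ _ (by rw [← Units.val_mul, mul_inv_cancel, Units.val_one])
    (by rw [← Units.val_mul, inv_mul_cancel, Units.val_one])
    (by rw [← Units.val_mul, inv_mul_cancel, Units.val_one])

/-- [S56/DICT-ORD] strictly ordinary lifts: after conjugation by `g` and modification by the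
coboundary of `Y` the cocycle takes values in the strictly upper triangular matrices on the
decomposition group, and `g⁻¹ r0 g = [[χ z, *], [0, z]]` there, `z` unramified. -/
theorem dict_strictOrd (p : ℕ) [Fact p.Prime] (hp2 : p ≠ 2) (hp𝒪 : (p : 𝒪) ∈ maximalIdeal 𝒪)
    (h : HasMatrix ρ (liftMat r0 c)) (hord : ρ.IsStrictOrdinaryAt p)
    (P : ValuationSubring (AlgebraicClosure ℚ)) (hP : P.LiesOverPrime p) :
    ∃ (g : GL (Fin 2) (ResidueField 𝒪)) (Y : Ad0 (ResidueField 𝒪)),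
      ∀ σ ∈ P.decompositionSubgroup ℚ,
        ((g⁻¹ * r0 σ * g : GL (Fin 2) (ResidueField 𝒪)) : M2 (ResidueField 𝒪)) 1 0 = 0 ∧
        ((g⁻¹ * r0 σ * g : GL (Fin 2) (ResidueField 𝒪)) : M2 (ResidueField 𝒪)) 0 0 =
          (((ExtCitation.cycloChar p σ : (ZMod p)ˣ) : ZMod p).val : ResidueField 𝒪) *
            ((g⁻¹ * r0 σ * g : GL (Fin 2) (ResidueField 𝒪)) : M2 (ResidueField 𝒪)) 1 1 ∧
        (σ ∈ P.inertiaSubgroupIn ℚ →
          ((g⁻¹ * r0 σ * g : GL (Fin 2) (ResidueField 𝒪)) : M2 (ResidueField 𝒪)) 1 1 = 1) ∧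
        ∃ t : ResidueField 𝒪,
          ((g⁻¹ : GL (Fin 2) (ResidueField 𝒪)) : M2 (ResidueField 𝒪)) *
            ((c σ + (adRho r0 σ Y - Y) : Ad0 (ResidueField 𝒪)) : M2 (ResidueField 𝒪)) *
              (g : M2 (ResidueField 𝒪)) = !![0, t; 0, 0] := by
  obtain ⟨b₁, hb₁⟩ := h
  obtain ⟨L, ⟨b₂, hL⟩, hD, hI, hxz⟩ := hord.2 P hP
  obtain ⟨M, hM⟩ := Dict.exists_unit_conj b₁ b₂
  obtain ⟨g, Y0, hg⟩ := exists_kunit M⁻¹
  have hMg : M = (kunit g Y0)⁻¹ := by rw [← hg, inv_inv]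
  have h2 : (2 : ResidueField 𝒪) ≠ 0 := dictOrd_two_ne_zero p hp2 hp𝒪
  have hp0 : (p : ResidueField 𝒪) = 0 := dictOrd_p_zero p hp𝒪
  obtain ⟨Y0', hY0'⟩ : ∃ Y0' : M2 (ResidueField 𝒪), Y0' = (g : M2 (ResidueField 𝒪)) * Y0 *
      ((g⁻¹ : GL (Fin 2) (ResidueField 𝒪)) : M2 (ResidueField 𝒪)) := ⟨_, rfl⟩
  have hYtr : (Y0' - (Y0'.trace / 2) • (1 : M2 (ResidueField 𝒪))).trace = 0 := by
    rw [Matrix.trace_sub, Matrix.trace_smul, Matrix.trace_one, Fintype.card_fin, smul_eq_mul]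
    push_cast
    field_simp
    ring
  refine ⟨g, ⟨Y0' - (Y0'.trace / 2) • (1 : M2 (ResidueField 𝒪)), mem_ad0.2 hYtr⟩, fun σ hσ => ?_⟩
  obtain ⟨x, z, hx, hz, hcyc⟩ := hxz σ hσ
  obtain ⟨e00, e10, e11⟩ := dictOrd_entries b₂ (ρ.ρ σ) x z (by rw [← hL]; exact hx)
    (by rw [← hL]; exact hz _)
  -- the cocycle, modified
  have hcoe : ((c σ + (adRho r0 σ ⟨Y0' - (Y0'.trace / 2) • (1 : M2 (ResidueField 𝒪)), mem_ad0.2 hYtr⟩ -
      ⟨Y0' - (Y0'.trace / 2) • (1 : M2 (ResidueField 𝒪)), mem_ad0.2 hYtr⟩) : Ad0 (ResidueField 𝒪)) :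
        M2 (ResidueField 𝒪)) = (c σ : M2 (ResidueField 𝒪)) + ((r0 σ : M2 (ResidueField 𝒪)) * Y0' *
          (((r0 σ)⁻¹ : GL (Fin 2) (ResidueField 𝒪)) : M2 (ResidueField 𝒪)) - Y0') := by
    rw [AddSubgroup.coe_add, AddSubgroup.coe_sub, coe_adRho]
    show (c σ : M2 (ResidueField 𝒪)) + ((r0 σ : M2 (ResidueField 𝒪)) *
      (Y0' - (Y0'.trace / 2) • (1 : M2 (ResidueField 𝒪))) *
        (((r0 σ)⁻¹ : GL (Fin 2) (ResidueField 𝒪)) : M2 (ResidueField 𝒪)) -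
          (Y0' - (Y0'.trace / 2) • (1 : M2 (ResidueField 𝒪)))) = _
    rw [dictOrd_scalar _ _ _ _ (by rw [← Units.val_mul, mul_inv_cancel, Units.val_one])]
  rw [hcoe]
  obtain ⟨R, hR⟩ : ∃ R : M2 (ResidueField 𝒪),
      R = ((g⁻¹ * r0 σ * g : GL (Fin 2) (ResidueField 𝒪)) : M2 (ResidueField 𝒪)) := ⟨_, rfl⟩
  obtain ⟨C', hC'⟩ : ∃ C' : M2 (ResidueField 𝒪),
      C' = ((g⁻¹ : GL (Fin 2) (ResidueField 𝒪)) : M2 (ResidueField 𝒪)) *
        ((c σ : M2 (ResidueField 𝒪)) + ((r0 σ : M2 (ResidueField 𝒪)) * Y0' *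
          (((r0 σ)⁻¹ : GL (Fin 2) (ResidueField 𝒪)) : M2 (ResidueField 𝒪)) - Y0')) *
            (g : M2 (ResidueField 𝒪)) := ⟨_, rfl⟩
  have hr' : LinearMap.toMatrix b₂ b₂ (ρ.ρ σ) = kmat R (C' * R) := by
    rw [hM, hb₁, liftMat_eq, hMg, inv_inv, dictOrd_conj, ← hY0', ← hR, ← hC']
  rw [← hR, ← hC']
  rw [hr', kmat_apply] at e00 e10 e11
  have hRdet : R.det ≠ 0 := by
    rw [hR]
    exact ((g⁻¹ * r0 σ * g : GL (Fin 2) (ResidueField 𝒪))).isUnit.map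
      (Matrix.detMonoidHom (n := Fin 2) (R := ResidueField 𝒪)) |>.ne_zero
  have hCtr : C'.trace = 0 := by
    rw [hC', Matrix.trace_mul_cycle, ← Units.val_mul, mul_inv_cancel, Units.val_one, Matrix.one_mul,
      Matrix.trace_add, Matrix.trace_sub, Matrix.trace_mul_cycle, ← Units.val_mul, inv_mul_cancel,
      Units.val_one, Matrix.one_mul, sub_self, add_zero]
    exact (c σ).2
  -- the relation `x = a z`
  have hxa : x = ((((ExtCitation.cycloChar p σ : (ZMod p)ˣ) : ZMod p).val : ℕ) : Keps 𝒪) * z := by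
    have h := hcyc 1 ((ExtCitation.cycloChar p σ : (ZMod p)ˣ) : ZMod p).val
      (fun μ hμ => E.cycloChar_spec p σ (by rwa [pow_one] at hμ))
    have hz0 : (((p ^ 1 : ℕ) : ℕ) : Keps 𝒪) = 0 := by
      rw [pow_one, kmk_natCast, hp0, ← kmk_zero]
    rw [hz0, Ideal.span_singleton_zero, Ideal.mem_bot, sub_eq_zero] at h
    exact h
  rw [← e00, ← e11, kmk_natCast, kmk_mul, kmk_inj] at hxa
  rw [kmk_zero, kmk_inj] at e10
  obtain ⟨t, ht⟩ := dictOrd_core h2 R C' hRdet hCtr _ e10.1 hxa.1 e10.2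
    (by rw [hxa.2, zero_mul, add_zero])
  refine ⟨e10.1, hxa.1, fun hσI => ?_, t, ht⟩
  have hI1 := hI σ hσI (b₂ 1)
  rw [hL] at hI1
  have hI2 : ρ.ρ σ (b₂ 1) - (1 : Keps 𝒪) • b₂ 1 ∈ (Keps 𝒪 ∙ b₂ 0) := by rwa [one_smul]
  obtain ⟨-, -, f11⟩ := dictOrd_entries b₂ (ρ.ρ σ) x 1 (by rw [← hL]; exact hx) hI2
  rw [hr', kmat_apply, kmk_one, kmk_inj] at f11
  exact f11.1

end Fermat.Agent.S56
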