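import Fermat.Agent.S56.Tan.Defs

/-!
# S56 / Tan / BCFlat : flatness is stable under push forward along a surjection      key `S56/BC-FLAT` (~250 lines)

`letI := φ.toAlgebra`, `V' = B ⊗[A] V`.  `ResidueField B` is a quotient of `ResidueField A` (`ResidueField.map φ` is onto because `φ` is), so it is finite.
Let `I` be an ideal of `B` with `B ⧸ I` finite, `I₀ = I.comap φ`.  `A ⧸ I₀ ≃ B ⧸ I` (`Ideal.quotientMap` injective + surjective), so `A ⧸ I₀` is finite: `h.2 I₀` gives `H, e₀`.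
The additive map `j : V ⧸ I₀ • ⊤ → V' ⧸ I • ⊤`, `[v] ↦ [1 ⊗ₜ v]` is bijective and commutes with `levelAction`:
* well defined: `1 ⊗ₜ (a • v) = φ a • (1 ⊗ₜ v) ∈ I • ⊤` for `a ∈ I₀`;
* onto: `c ⊗ₜ v = φ a ⊗ₜ v = 1 ⊗ₜ (a • v)`;
* injective: choose a basis `b` of `V` (`Module.Free`, `Module.finBasisOfFinrankEq`), `b.baseChange B`; `x ∈ I • ⊤ ↔` all coordinates lie in `I` (see `S53.repr_mem_of_mem_smul_top`, `S53.mem_smul_top_of_forall` in `S53/Dict.lean`); coordinates of `1 ⊗ₜ v` are `φ (b.repr v i)`.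
`e = j ∘ e₀`.
-/

set_option autoImplicit false
set_option linter.style.haveILetI false
open IsLocalRing TensorProduct
noncomputable section
namespace Fermat.Agent.S56

section Abs
variable {A B : Type} [CommRing A] [CommRing B] [Algebra A B]
  {V : Type} [AddCommGroup V] [Module A V]

/-- `[v] ↦ [1 ⊗ v]` -/
def bcfJ (I : Ideal B) :
    (V ⧸ ((I.comap (algebraMap A B)) • (⊤ : Submodule A V))) →ₗ[A]
      ((B ⊗[A] V) ⧸ (I • (⊤ : Submodule B (B ⊗[A] V)))) :=
  Submodule.liftQ _ (((I • (⊤ : Submodule B (B ⊗[A] V))).mkQ.restrictScalars A).comp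
    (TensorProduct.mk A B V 1)) (by
    rw [Submodule.smul_le]
    intro a ha v _
    rw [LinearMap.mem_ker]
    show Submodule.Quotient.mk ((1 : B) ⊗ₜ[A] (a • v)) = 0
    rw [Submodule.Quotient.mk_eq_zero]
    have : (1 : B) ⊗ₜ[A] (a • v) = (algebraMap A B a) • ((1 : B) ⊗ₜ[A] v) := by
      rw [TensorProduct.tmul_smul, TensorProduct.smul_tmul', TensorProduct.smul_tmul',
        Algebra.smul_def, smul_eq_mul]
    rw [this]
    exact Submodule.smul_mem_smul ha Submodule.mem_top)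

theorem bcfJ_mk (I : Ideal B) (v : V) :
    bcfJ (A := A) I (Submodule.Quotient.mk v) = Submodule.Quotient.mk ((1 : B) ⊗ₜ[A] v) := rfl

theorem bcfJ_surjective (hsurj : Function.Surjective (algebraMap A B)) (I : Ideal B) :
    Function.Surjective (bcfJ (A := A) (V := V) I) := by
  intro y
  obtain ⟨x, rfl⟩ := Submodule.Quotient.mk_surjective _ y
  induction x using TensorProduct.induction_on with
  | zero => exact ⟨0, by rw [map_zero]; rfl⟩
  | tmul c v =>
    obtain ⟨a, rfl⟩ := hsurj c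
    refine ⟨Submodule.Quotient.mk (a • v), ?_⟩
    rw [bcfJ_mk, TensorProduct.tmul_smul, TensorProduct.smul_tmul', Algebra.smul_def, mul_one]
  | add x y hx hy =>
    obtain ⟨x', hx'⟩ := hx
    obtain ⟨y', hy'⟩ := hy
    exact ⟨x' + y', by rw [map_add, hx', hy']; rfl⟩

theorem bcfJ_injective (b : Module.Basis (Fin 2) A V) (I : Ideal B) :
    Function.Injective (bcfJ (A := A) (V := V) I) := by
  rw [injective_iff_map_eq_zero]
  intro y hy
  obtain ⟨v, rfl⟩ := Submodule.Quotient.mk_surjective _ y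
  rw [bcfJ_mk, Submodule.Quotient.mk_eq_zero] at hy
  rw [Submodule.Quotient.mk_eq_zero]
  have h1 : ∀ i, b.repr v i ∈ I.comap (algebraMap A B) := by
    intro i
    have := Fermat.Agent.S53.Dict.repr_mem_of_mem_smul_top (Algebra.TensorProduct.basis B b) I hy i
    rw [Algebra.TensorProduct.basis_repr_tmul] at this
    simpa using this
  rw [← b.sum_repr v]
  exact Submodule.sum_mem _ fun i _ => Submodule.smul_mem_smul (h1 i) Submodule.mem_top

end Abs

variable {A B : Type} [CommRing A] [IsLocalRing A] [CommRing B] [IsLocalRing B]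

/-- [S56/BC-FLAT] -/
theorem bc_flat {p : ℕ} (φ : A →+* B) (hφ : IsLocalHom φ) (hsurj : Function.Surjective φ)
    {ρ : GaloisRepAdic A} (h : ρ.IsFlatAt p) : (ρ.baseChangeAlong φ hφ).IsFlatAt p := by
  letI : Algebra A B := φ.toAlgebra
  obtain ⟨hfin, hI⟩ := h
  refine ⟨?_, fun I hIfin => ?_⟩
  · refine Finite.of_surjective (IsLocalRing.ResidueField.map φ) ?_
    intro y
    obtain ⟨c, rfl⟩ := IsLocalRing.residue_surjective y
    obtain ⟨a, rfl⟩ := hsurj c
    exact ⟨IsLocalRing.residue A a, rfl⟩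
  · have hfin0 : Finite (A ⧸ I.comap φ) :=
      Finite.of_injective (Ideal.quotientMap I φ le_rfl) (Ideal.quotientMap_injective)
    obtain ⟨H, i1, i2, h1, h2, h3, e₀, he1, he2⟩ := hI (I.comap φ) hfin0
    have b : Module.Basis (Fin 2) A ρ.V := Module.finBasisOfFinrankEq A ρ.V ρ.finrank_eq
    let J : (ρ.V ⧸ ((I.comap φ) • (⊤ : Submodule A ρ.V))) ≃
        ((B ⊗[A] ρ.V) ⧸ (I • (⊤ : Submodule B (B ⊗[A] ρ.V)))) :=
      Equiv.ofBijective (bcfJ (A := A) (V := ρ.V) I) ⟨bcfJ_injective b I, bcfJ_surjective hsurj I⟩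
    refine ⟨H, i1, i2, h1, h2, h3, e₀.trans J, fun f g => ?_, fun σ f g hfg => ?_⟩
    · show bcfJ (A := A) (V := ρ.V) I (e₀ (f * g)) = bcfJ (A := A) (V := ρ.V) I (e₀ f) +
        bcfJ (A := A) (V := ρ.V) I (e₀ g)
      rw [he1, map_add]
    · show bcfJ (A := A) (V := ρ.V) I (e₀ g) = (ρ.baseChangeAlong φ hφ).levelAction I σ
        (bcfJ (A := A) (V := ρ.V) I (e₀ f))
      rw [he2 σ f g hfg]
      obtain ⟨v, hv⟩ := Submodule.Quotient.mk_surjective _ (e₀ f)
      rw [← hv]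
      rfl

end Fermat.Agent.S56
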