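import Fermat.Agent.S56.Tan.Defs

/-!
# S56 / Tan / BCOrd : strict ordinarity is stable under base change      key `S56/BC-ORD` (~200 lines)

`letI := φ.toAlgebra`.  `L = A ∙ b 0`; `b' = b.baseChange B` (`Module.Basis.baseChange`, `b' i = 1 ⊗ₜ b i`), `L' = B ∙ b' 0`.
Every `w ∈ L'` is `c • (1 ⊗ₜ b 0)`.  Every element of `B ⊗ V` is a sum of `c ⊗ₜ v` (`TensorProduct.induction_on`); `c ⊗ₜ v ∈ L'` for `v ∈ L` (`v = a • b 0`, `c ⊗ₜ (a • b 0) = (c * φ a) • (1 ⊗ₜ b 0)`).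
* stability: `(ρ σ).baseChange B (c • 1 ⊗ₜ b 0) = c ⊗ₜ ρ σ (b 0)`, `ρ σ (b 0) ∈ L`.
* inertia: `(ρ σ).baseChange B (c ⊗ₜ v) - c ⊗ₜ v = c ⊗ₜ (ρ σ v - v)`.
* `x' = φ x`, `z' = φ z`: `c ⊗ₜ (x • b 0) = φ x • (c ⊗ₜ b 0)`; `x' - a z' = φ (x - a z) ∈ span {p ^ n}`.
-/

set_option autoImplicit false
set_option linter.style.haveILetI false

open IsLocalRing TensorProduct

noncomputable section

namespace Fermat.Agent.S56

section Abs
variable {A B : Type} [CommRing A] [CommRing B] [Algebra A B]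
  {V : Type} [AddCommGroup V] [Module A V]

theorem bco_smul_tmul (a : A) (c : B) (v : V) :
    c ⊗ₜ[A] (a • v) = algebraMap A B a • (c ⊗ₜ[A] v) := by
  rw [TensorProduct.tmul_smul, TensorProduct.smul_tmul', TensorProduct.smul_tmul',
    Algebra.smul_def, smul_eq_mul]

theorem bco_tmul_mem (b0 : V) (c : B) {v : V} (hv : v ∈ Submodule.span A {b0}) :
    c ⊗ₜ[A] v ∈ Submodule.span B {(1 : B) ⊗ₜ[A] b0} := by
  obtain ⟨a, rfl⟩ := Submodule.mem_span_singleton.1 hv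
  rw [Submodule.mem_span_singleton]
  refine ⟨algebraMap A B a * c, ?_⟩
  rw [bco_smul_tmul, mul_smul, TensorProduct.smul_tmul' c, smul_eq_mul, mul_one]

theorem bco_sub_mem (b0 : V) (T : V →ₗ[A] V) (z : A)
    (h : ∀ v, T v - z • v ∈ Submodule.span A {b0}) (x : B ⊗[A] V) :
    T.baseChange B x - algebraMap A B z • x ∈ Submodule.span B {(1 : B) ⊗ₜ[A] b0} := by
  induction x using TensorProduct.induction_on with
  | zero => simp
  | tmul c v =>
    rw [LinearMap.baseChange_tmul, ← bco_smul_tmul, ← TensorProduct.tmul_sub]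
    exact bco_tmul_mem b0 c (h v)
  | add x y hx hy =>
    have : T.baseChange B (x + y) - algebraMap A B z • (x + y) =
        (T.baseChange B x - algebraMap A B z • x) + (T.baseChange B y - algebraMap A B z • y) := by
      rw [map_add, smul_add]; abel
    rw [this]
    exact add_mem hx hy

theorem bco_main (b : Module.Basis (Fin 2) A V) :
    ∃ L' : Submodule B (B ⊗[A] V), (∃ b' : Module.Basis (Fin 2) B (B ⊗[A] V), L' = Submodule.span B {b' 0}) ∧
      (∀ T : V →ₗ[A] V, (∀ v ∈ Submodule.span A {b 0}, T v ∈ Submodule.span A {b 0}) →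
        ∀ w ∈ L', T.baseChange B w ∈ L') ∧
      (∀ T : V →ₗ[A] V, (∀ v, T v - v ∈ Submodule.span A {b 0}) → ∀ x, T.baseChange B x - x ∈ L') ∧
      (∀ (T : V →ₗ[A] V) (z : A), (∀ v, T v - z • v ∈ Submodule.span A {b 0}) →
        ∀ x, T.baseChange B x - algebraMap A B z • x ∈ L') ∧
      (∀ (T : V →ₗ[A] V) (x : A), (∀ w ∈ Submodule.span A {b 0}, T w = x • w) →
        ∀ w ∈ L', T.baseChange B w = algebraMap A B x • w) := by
  have hb0 : b 0 ∈ Submodule.span A {b 0} := Submodule.mem_span_singleton_self _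
  refine ⟨Submodule.span B {(1 : B) ⊗ₜ[A] b 0}, ⟨Algebra.TensorProduct.basis B b, ?_⟩, ?_, ?_, ?_, ?_⟩
  · rw [Algebra.TensorProduct.basis_apply]
  · intro T hT w hw
    obtain ⟨c, rfl⟩ := Submodule.mem_span_singleton.1 hw
    rw [map_smul, LinearMap.baseChange_tmul]
    exact Submodule.smul_mem _ _ (bco_tmul_mem (b 0) 1 (hT _ hb0))
  · intro T hT x
    have := bco_sub_mem (B := B) (b 0) T 1 (fun v => by rw [one_smul]; exact hT v) x
    rw [map_one, one_smul] at this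
    exact this
  · intro T z hT x
    exact bco_sub_mem (B := B) (b 0) T z hT x
  · intro T x hT w hw
    obtain ⟨c, rfl⟩ := Submodule.mem_span_singleton.1 hw
    rw [map_smul, LinearMap.baseChange_tmul, hT _ hb0, bco_smul_tmul, smul_comm]

end Abs

variable {A B : Type} [CommRing A] [IsLocalRing A] [CommRing B] [IsLocalRing B]

/-- [S56/BC-ORD] -/
theorem bc_strictOrd {p : ℕ} (φ : A →+* B) (hφ : IsLocalHom φ) {ρ : GaloisRepAdic A}
    (h : ρ.IsStrictOrdinaryAt p) : (ρ.baseChangeAlong φ hφ).IsStrictOrdinaryAt p := by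
  letI : Algebra A B := φ.toAlgebra
  refine ⟨?_, fun P hP => ?_⟩
  · have h1 := map_nonunit φ (p : A) h.1
    rwa [map_natCast] at h1
  obtain ⟨L, ⟨b, rfl⟩, hD, hI, hS⟩ := h.2 P hP
  obtain ⟨L', hb', k1, k2, k3, k4⟩ := bco_main (B := B) b
  refine ⟨L', hb', fun σ hσ w hw => k1 (ρ.ρ σ) (hD σ hσ) w hw, fun σ hσ x => k2 (ρ.ρ σ) (hI σ hσ) x,
    fun σ hσ => ?_⟩
  obtain ⟨x, z, h1, h2, h3⟩ := hS σ hσ
  refine ⟨φ x, φ z, fun w hw => k4 (ρ.ρ σ) x h1 w hw, fun v => k3 (ρ.ρ σ) z h2 v, fun n a ha => ?_⟩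
  obtain ⟨c, hc⟩ := Ideal.mem_span_singleton'.1 (h3 n a ha)
  rw [Ideal.mem_span_singleton']
  refine ⟨φ c, ?_⟩
  have h4 := congrArg φ hc
  rw [map_mul, map_sub, map_mul, map_natCast, map_natCast] at h4
  exact h4

end Fermat.Agent.S56
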