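import Fermat.Agent.S56.Tan.Hom

/-!
# S56 / Tan / Alg1 : few homomorphisms to `k[ε]` ⟹ few generators of the maximal ideal      key `S56/TAN-ALG1` (~400 lines)

`𝔪 = maximalIdeal R`, `𝔞 = 𝔪 ^ 2 ⊔ (maximalIdeal 𝒪).map (algebraMap 𝒪 R)`, `H = (R →ₐ[𝒪] Keps 𝒪)`.
1. For `φ ∈ H`: `kfst (φ a) = κ a`, where `κ a = residue 𝒪 o` for any `o : 𝒪` with `residue R (algebraMap o) = residue R a` (`φ` is local: `S53.isLocalHom_of_algHom`, `keps_isArtinianTestAlgebra.residue_surjective`; `φ (a - algebraMap o) ∈ maximalIdeal (Keps 𝒪)`, `keps_mem_maximalIdeal`, `keps_algebraMap'`).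
   So `φ ↦ D φ := ksnd ∘ φ : R → k` is injective.
2. `W = {D φ | φ ∈ H}` is a `k`-subspace of `R → k`: `D φ + D ψ = D χ`, `χ a = kmk (κ a) (D φ a + D ψ a)` is an algebra hom (`D (a b) = κ a D b + D a κ b`, `D (algebraMap o) = 0`); the same for `c • D φ`.  `Nat.card W = Nat.card H ≤ #k ^ r`, so `finrank k W ≤ r` (`card_eq_pow_finrank`, `Nat.pow_le_pow_iff_right`).
3. `E : 𝔪 → (W →ₗ[k] k)` (or `𝔪 → (Fin d → k)` for a basis `D₁..D_d` of `W`), `x ↦ (D ↦ D x)`, is additive, `E (a x) = κ a • E x`, and `E x = 0 ⟹ x ∈ 𝔞` (`S53.exists_algHom_keps`: `x ∈ 𝔪 \ 𝔞 ⟹ ∃ φ, φ x ≠ 0`, and `kfst (φ x) = 0`).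
4. The image of `E` is a `k`-subspace of dimension `≤ d ≤ r`: choose `x₁..x_r ∈ 𝔪` whose images span it.  For `x ∈ 𝔪`: `E x = ∑ cᵢ E xᵢ`, `cᵢ = residue 𝒪 oᵢ`, `x - ∑ oᵢ xᵢ ∈ ker E ⊆ 𝔞`.  So `𝔪 ≤ span (range x) ⊔ π R ⊔ 𝔪 ^ 2 = N ⊔ 𝔪 • 𝔪`; Nakayama (`Submodule.le_of_le_smul_of_le_jacobson_bot` with `𝔪.FG`, `IsLocalRing.maximalIdeal_le_jacobson`): `𝔪 ≤ N`.
-/

set_option autoImplicit false

open IsLocalRing Fermat.Agent.S53

noncomputable section

namespace Fermat.Agent.S56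

section Aux

variable {𝒪 : Type} [CommRing 𝒪] [IsLocalRing 𝒪]
  {R : Type} [CommRing R] [IsLocalRing R] [Algebra 𝒪 R]

/-- the space of `κ`-derivations `R → k` which kill `𝒪` -/
def derK (κ : R →+* ResidueField 𝒪) : Submodule (ResidueField 𝒪) (R → ResidueField 𝒪) where
  carrier := {D | (∀ a b, D (a + b) = D a + D b) ∧ (∀ a b, D (a * b) = κ a * D b + D a * κ b) ∧
    ∀ o : 𝒪, D (algebraMap 𝒪 R o) = 0}
  add_mem' := by
    rintro D D' ⟨h1, h2, h3⟩ ⟨h1', h2', h3'⟩
    refine ⟨fun a b => ?_, fun a b => ?_, fun o => ?_⟩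
    · simp only [Pi.add_apply, h1, h1']; ring
    · simp only [Pi.add_apply, h2, h2']; ring
    · simp only [Pi.add_apply, h3, h3', add_zero]
  zero_mem' := ⟨fun a b => by simp, fun a b => by simp, fun o => rfl⟩
  smul_mem' := by
    rintro c D ⟨h1, h2, h3⟩
    refine ⟨fun a b => ?_, fun a b => ?_, fun o => ?_⟩
    · simp only [Pi.smul_apply, h1, smul_eq_mul]; ring
    · simp only [Pi.smul_apply, h2, smul_eq_mul]; ring
    · simp only [Pi.smul_apply, h3, smul_eq_mul, mul_zero]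

/-- the algebra homomorphism attached to a derivation -/
def derHom (κ : R →+* ResidueField 𝒪) (hκ : ∀ o : 𝒪, κ (algebraMap 𝒪 R o) = residue 𝒪 o)
    (D : derK κ) : R →ₐ[𝒪] Keps 𝒪 where
  toFun a := kmk (κ a) (D.1 a)
  map_one' := by
    have h : D.1 1 = 0 := by
      have := D.2.2.2 1
      rwa [map_one] at this
    rw [map_one, h, ← kmk_one]
  map_mul' a b := by rw [map_mul, D.2.2.1, kmk_mul]
  map_zero' := by
    have h : D.1 0 = 0 := by
      have := D.2.2.2 0
      rwa [map_zero] at this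
    rw [map_zero, h, ← kmk_zero]
  map_add' a b := by rw [map_add, D.2.1, kmk_add]
  commutes' o := by rw [hκ, D.2.2.2, keps_algebraMap']

theorem derHom_apply (κ : R →+* ResidueField 𝒪)
    (hκ : ∀ o : 𝒪, κ (algebraMap 𝒪 R o) = residue 𝒪 o) (D : derK κ) (a : R) :
    derHom κ hκ D a = kmk (κ a) (D.1 a) := rfl

theorem derHom_injective (κ : R →+* ResidueField 𝒪)
    (hκ : ∀ o : 𝒪, κ (algebraMap 𝒪 R o) = residue 𝒪 o) : Function.Injective (derHom κ hκ) := by
  intro D D' h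
  apply Subtype.ext
  funext a
  have := congrArg ksnd (DFunLike.congr_fun h a)
  rwa [derHom_apply, derHom_apply, ksnd_kmk, ksnd_kmk] at this

/-- the derivation attached to an algebra homomorphism -/
theorem ksnd_comp_mem (κ : R →+* ResidueField 𝒪) (φ : R →ₐ[𝒪] Keps 𝒪)
    (hφ : ∀ a, kfst (φ a) = κ a) : (fun a => ksnd (φ a)) ∈ derK κ := by
  refine ⟨fun a b => ?_, fun a b => ?_, fun o => ?_⟩
  · show ksnd (φ (a + b)) = _
    rw [map_add, ksnd_add]
  · show ksnd (φ (a * b)) = _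
    rw [map_mul, ksnd_mul, hφ, hφ]
  · show ksnd (φ (algebraMap 𝒪 R o)) = 0
    rw [φ.commutes, keps_algebraMap', ksnd_kmk]

/-- evaluation -/
def derEv (κ : R →+* ResidueField 𝒪) (x : R) : Module.Dual (ResidueField 𝒪) (derK κ) where
  toFun D := D.1 x
  map_add' _ _ := rfl
  map_smul' _ _ := rfl

theorem derEv_add (κ : R →+* ResidueField 𝒪) (x y : R) :
    derEv κ (x + y) = derEv κ x + derEv κ y := by
  ext D
  exact D.2.1 x y

theorem derEv_zero (κ : R →+* ResidueField 𝒪) : derEv κ (0 : R) = 0 := by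
  have := derEv_add κ (0 : R) 0
  rw [add_zero] at this
  exact left_eq_add.1 this

theorem derEv_smul (κ : R →+* ResidueField 𝒪)
    (hκ : ∀ o : 𝒪, κ (algebraMap 𝒪 R o) = residue 𝒪 o) (o : 𝒪) (x : R) :
    derEv κ (algebraMap 𝒪 R o * x) = residue 𝒪 o • derEv κ x := by
  ext D
  show D.1 (algebraMap 𝒪 R o * x) = residue 𝒪 o * D.1 x
  rw [D.2.2.1, D.2.2.2, hκ, zero_mul, add_zero]

theorem derEv_sum (κ : R →+* ResidueField 𝒪) {ι : Type*} (s : Finset ι) (f : ι → R) :
    derEv κ (∑ i ∈ s, f i) = ∑ i ∈ s, derEv κ (f i) := by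
  classical
  induction s using Finset.induction_on with
  | empty => simpa using derEv_zero κ
  | insert a s ha ih => rw [Finset.sum_insert ha, Finset.sum_insert ha, derEv_add, ih]

theorem derEv_neg (κ : R →+* ResidueField 𝒪) (x : R) : derEv κ (-x) = - derEv κ x := by
  have := derEv_add κ x (-x)
  rw [add_neg_cancel, derEv_zero] at this
  exact (neg_eq_of_add_eq_zero_right this.symm).symm

/-- the image of the maximal ideal -/
def derImg (κ : R →+* ResidueField 𝒪) (hκ : ∀ o : 𝒪, κ (algebraMap 𝒪 R o) = residue 𝒪 o) :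
    Submodule (ResidueField 𝒪) (Module.Dual (ResidueField 𝒪) (derK κ)) where
  carrier := {ℓ | ∃ x ∈ maximalIdeal R, derEv κ x = ℓ}
  add_mem' := by
    rintro _ _ ⟨x, hx, rfl⟩ ⟨y, hy, rfl⟩
    exact ⟨x + y, add_mem hx hy, derEv_add κ x y⟩
  zero_mem' := ⟨0, zero_mem _, derEv_zero κ⟩
  smul_mem' := by
    rintro c _ ⟨x, hx, rfl⟩
    obtain ⟨o, rfl⟩ := residue_surjective c
    exact ⟨algebraMap 𝒪 R o * x, Ideal.mul_mem_left _ _ hx, derEv_smul κ hκ o x⟩

end Aux

/-- a vector space of dimension `≤ r` is spanned by `r` elements -/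
theorem exists_fin_span_of_finrank_le {K V : Type*} [Field K] [AddCommGroup V] [Module K V]
    [Module.Finite K V] {r : ℕ} (h : Module.finrank K V ≤ r) :
    ∃ y : Fin r → V, Submodule.span K (Set.range y) = ⊤ := by
  let b := Module.finBasis K V
  refine ⟨fun i => if hi : (i : ℕ) < Module.finrank K V then b ⟨i, hi⟩ else 0, ?_⟩
  rw [eq_top_iff, ← b.span_eq, Submodule.span_le]
  rintro _ ⟨i, rfl⟩
  apply Submodule.subset_span
  refine ⟨⟨i, lt_of_lt_of_le i.2 h⟩, ?_⟩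
  simp

/-- [S56/TAN-ALG1] -/
theorem exists_gens_of_card {𝒪 : Type} [CommRing 𝒪] [IsLocalRing 𝒪] [Finite (ResidueField 𝒪)]
    {R : Type} [CommRing R] [IsLocalRing R] [IsNoetherianRing R]
    [Algebra 𝒪 R] [IsLocalHom (algebraMap 𝒪 R)]
    (hres : Function.Surjective (residue R ∘ algebraMap 𝒪 R)) (r : ℕ)
    [Finite (R →ₐ[𝒪] Keps 𝒪)]
    (hcard : Nat.card (R →ₐ[𝒪] Keps 𝒪) ≤ Nat.card (ResidueField 𝒪) ^ r) :
    ∃ x : Fin r → R,
      maximalIdeal R = Ideal.span (Set.range x) ⊔ (maximalIdeal 𝒪).map (algebraMap 𝒪 R) := by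
  classical
  -- the residue map `R → k`
  have hbij : Function.Bijective (ResidueField.map (algebraMap 𝒪 R)) := by
    refine ⟨RingHom.injective _, fun x => ?_⟩
    obtain ⟨a, ha⟩ := hres x
    exact ⟨residue 𝒪 a, by rw [ResidueField.map_residue]; exact ha⟩
  let e : ResidueField 𝒪 ≃+* ResidueField R := RingEquiv.ofBijective _ hbij
  let κ : R →+* ResidueField 𝒪 := (e.symm : ResidueField R →+* ResidueField 𝒪).comp (residue R)
  have hκ' : ∀ (a : R) (o : 𝒪), residue R (algebraMap 𝒪 R o) = residue R a → κ a = residue 𝒪 o := by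
    intro a o h
    show e.symm (residue R a) = residue 𝒪 o
    rw [RingEquiv.symm_apply_eq, ← h]
    rfl
  have hκ : ∀ o : 𝒪, κ (algebraMap 𝒪 R o) = residue 𝒪 o := fun o => hκ' _ o rfl
  have hκm : ∀ x ∈ maximalIdeal R, κ x = 0 := by
    intro x hx
    show e.symm (residue R x) = 0
    rw [(residue_eq_zero_iff x).2 hx, map_zero]
  have hφκ : ∀ (φ : R →ₐ[𝒪] Keps 𝒪) (a : R), kfst (φ a) = κ a := by
    intro φ a
    obtain ⟨o, ho⟩ := hres (residue R a)
    rw [kfst_algHom φ ho, hκ' a o ho]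
  -- the dimension of the space of derivations
  have hfinW : Finite (derK κ) := Finite.of_injective _ (derHom_injective κ hκ)
  have hWcard : Nat.card (derK κ) ≤ Nat.card (ResidueField 𝒪) ^ r :=
    le_trans (Nat.card_le_card_of_injective _ (derHom_injective κ hκ)) hcard
  have hmf : Module.Finite (ResidueField 𝒪) (derK κ) := Module.Finite.of_finite
  have hrank : Module.finrank (ResidueField 𝒪) (derK κ) ≤ r := by
    cases nonempty_fintype (ResidueField 𝒪)
    cases nonempty_fintype (derK κ)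
    rw [Nat.card_eq_fintype_card, Nat.card_eq_fintype_card,
      Module.card_eq_pow_finrank (K := ResidueField 𝒪) (V := derK κ)] at hWcard
    exact (Nat.pow_le_pow_iff_right Fintype.one_lt_card).1 hWcard
  have hrank' : Module.finrank (ResidueField 𝒪) (derImg κ hκ) ≤ r := by
    refine le_trans (Submodule.finrank_le _) ?_
    rw [Subspace.dual_finrank_eq]
    exact hrank
  obtain ⟨y, hy⟩ := exists_fin_span_of_finrank_le (K := ResidueField 𝒪) (V := derImg κ hκ) hrank'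
  choose x hxm hxy using fun i => (y i).2
  refine ⟨x, ?_⟩
  have hπ : (maximalIdeal 𝒪).map (algebraMap 𝒪 R) ≤ maximalIdeal R := by
    rw [Ideal.map_le_iff_le_comap]
    intro a ha
    exact map_nonunit (algebraMap 𝒪 R) a ha
  have hN : Ideal.span (Set.range x) ⊔ (maximalIdeal 𝒪).map (algebraMap 𝒪 R) ≤ maximalIdeal R := by
    refine sup_le ?_ hπ
    rw [Ideal.span_le]
    rintro _ ⟨i, rfl⟩
    exact hxm i
  refine le_antisymm ?_ hN
  apply Submodule.le_of_le_smul_of_le_jacobson_bot (I := maximalIdeal R)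
    (IsNoetherian.noetherian _) (maximalIdeal_le_jacobson _)
  intro z hz
  -- `E z` is a combination of the `E x_i`
  have hzmem : (⟨derEv κ z, z, hz, rfl⟩ : derImg κ hκ) ∈ Submodule.span (ResidueField 𝒪) (Set.range y) := by
    rw [hy]; trivial
  obtain ⟨c, hc⟩ := (Submodule.mem_span_range_iff_exists_fun _).1 hzmem
  choose o ho using fun i => residue_surjective (c i)
  have hc' : ∑ i, c i • derEv κ (x i) = derEv κ z := by
    have h1 : ((∑ i, c i • y i : derImg κ hκ) : Module.Dual (ResidueField 𝒪) (derK κ)) =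
        derEv κ z := congrArg Subtype.val hc
    rw [AddSubmonoidClass.coe_finsetSum] at h1
    rw [← h1]
    exact Finset.sum_congr rfl fun i _ => by rw [Submodule.coe_smul, hxy i]
  have hE0 : derEv κ (z - ∑ i, algebraMap 𝒪 R (o i) * x i) = 0 := by
    rw [sub_eq_add_neg, derEv_add, derEv_neg, derEv_sum, ← hc', add_neg_eq_zero]
    exact Finset.sum_congr rfl fun i _ => by rw [derEv_smul κ hκ, ho i]
  have hsum : ∑ i, algebraMap 𝒪 R (o i) * x i ∈ Ideal.span (Set.range x) :=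
    Ideal.sum_mem _ fun i _ => Ideal.mul_mem_left _ _ (Ideal.subset_span ⟨i, rfl⟩)
  have hwm : z - ∑ i, algebraMap 𝒪 R (o i) * x i ∈ maximalIdeal R :=
    sub_mem hz (hN (Ideal.mem_sup_left hsum))
  have hwa : z - ∑ i, algebraMap 𝒪 R (o i) * x i ∈
      maximalIdeal R ^ 2 ⊔ (maximalIdeal 𝒪).map (algebraMap 𝒪 R) := by
    by_contra hcon
    obtain ⟨φ, hφ⟩ := exists_algHom_keps hres _ hwm hcon
    apply hφ
    apply keps_ext
    · rw [hφκ, hκm _ hwm, kfst_zero]
    · have := LinearMap.congr_fun hE0 ⟨_, ksnd_comp_mem κ φ (hφκ φ)⟩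
      exact this
  have hz' : z = ∑ i, algebraMap 𝒪 R (o i) * x i + (z - ∑ i, algebraMap 𝒪 R (o i) * x i) := by ring
  rw [hz']
  have hle : maximalIdeal R ^ 2 ⊔ (maximalIdeal 𝒪).map (algebraMap 𝒪 R) ≤
      (Ideal.span (Set.range x) ⊔ (maximalIdeal 𝒪).map (algebraMap 𝒪 R)) ⊔
        maximalIdeal R • maximalIdeal R := by
    refine sup_le ?_ (le_trans le_sup_right le_sup_left)
    rw [pow_two, smul_eq_mul]
    exact le_sup_right
  exact add_mem (Submodule.mem_sup_left (Ideal.mem_sup_left hsum)) (hle hwa)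

end Fermat.Agent.S56
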