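import Fermat.Agent.S53.Final
import Fermat.Agent.S53.PowerSeriesComplete

/-!
# S56 / Tan / Alg2 : generators of the maximal ideal give a surjection from a power series ring      key `S56/TAN-ALG2` (~150 lines)

`B = MvPolynomial (Fin r) 𝒪`, `J = MvPolynomial.idealOfVars (Fin r) 𝒪`, `g = aeval x : B → R`, `J.map g = span (range x) ≤ maximalIdeal R`.
`S53.complLift J (maximalIdeal R) g hJI : AdicCompletion J B →+* R` (`complLift_of`), composed with `MvPowerSeries.toAdicCompletionAlgEquiv (Fin r) 𝒪` (see `S53.isNoetherianRing_of_isAdicComplete` for the same construction):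
a ring hom `γ₀ : MvPowerSeries (Fin r) 𝒪 →+* R` with `γ₀ (C a) = algebraMap 𝒪 R a`, `γ₀ (X i) = x i`; so an `𝒪`-algebra hom `γ`.
Surjectivity: Mathlib's `surjective_of_mk_map_comp_surjective` with `I = maximalIdeal (MvPowerSeries (Fin r) 𝒪)` (`S53.isAdicComplete_mvPowerSeries`, `S53.maximalIdeal_mvPowerSeries`: `I = span (range X) ⊔ map C (maximalIdeal 𝒪)`), `I.map γ = maximalIdeal R` by `hx`, `R` is Hausdorff, and `𝒪 → R ⧸ maximalIdeal R` is onto (`hres`).
-/

set_option autoImplicit false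

open IsLocalRing Fermat.Agent.S53

noncomputable section

namespace Fermat.Agent.S56

/-- [S56/TAN-ALG2] -/
theorem exists_surjective_of_gens {𝒪 : Type} [CommRing 𝒪] [IsLocalRing 𝒪] [IsNoetherianRing 𝒪]
    [IsAdicComplete (maximalIdeal 𝒪) 𝒪]
    {R : Type} [CommRing R] [IsLocalRing R]
    [IsAdicComplete (maximalIdeal R) R] [Algebra 𝒪 R]
    (hres : Function.Surjective (residue R ∘ algebraMap 𝒪 R)) {r : ℕ} (x : Fin r → R)
    (hx : maximalIdeal R = Ideal.span (Set.range x) ⊔ (maximalIdeal 𝒪).map (algebraMap 𝒪 R)) :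
    ∃ γ : MvPowerSeries (Fin r) 𝒪 →ₐ[𝒪] R, Function.Surjective γ := by
  classical
  let g : MvPolynomial (Fin r) 𝒪 →+* R :=
    ((MvPolynomial.aeval x : MvPolynomial (Fin r) 𝒪 →ₐ[𝒪] R) : MvPolynomial (Fin r) 𝒪 →+* R)
  have hJ : (MvPolynomial.idealOfVars (Fin r) 𝒪).map g = Ideal.span (Set.range x) := by
    simp only [MvPolynomial.idealOfVars, Ideal.map_span, ← Set.range_comp]
    congr 2
    ext i
    exact MvPolynomial.aeval_X x i
  have hJI : (MvPolynomial.idealOfVars (Fin r) 𝒪).map g ≤ maximalIdeal R := by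
    rw [hJ, hx]
    exact le_sup_left
  let γ₀ : MvPowerSeries (Fin r) 𝒪 →+* R :=
    (complLift (MvPolynomial.idealOfVars (Fin r) 𝒪) (maximalIdeal R) g hJI).comp
      ((MvPowerSeries.toAdicCompletionAlgEquiv (Fin r) 𝒪).toRingEquiv : _ →+* _)
  have hpoly : ∀ P : MvPolynomial (Fin r) 𝒪, γ₀ (P : MvPowerSeries (Fin r) 𝒪) = g P := by
    intro P
    show complLift _ _ g hJI (MvPowerSeries.toAdicCompletion (Fin r) 𝒪 P) = g P
    rw [MvPowerSeries.toAdicCompletion_coe, complLift_of]
  have hC : ∀ a : 𝒪, γ₀ (MvPowerSeries.C a) = algebraMap 𝒪 R a := by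
    intro a
    rw [← MvPolynomial.coe_C, hpoly]
    exact MvPolynomial.aeval_C x a
  have hX : ∀ i, γ₀ (MvPowerSeries.X i) = x i := by
    intro i
    rw [← MvPolynomial.coe_X, hpoly]
    exact MvPolynomial.aeval_X x i
  have hmap : (maximalIdeal (MvPowerSeries (Fin r) 𝒪)).map γ₀ = maximalIdeal R := by
    rw [maximalIdeal_mvPowerSeries, Ideal.map_sup, Ideal.map_span, ← Set.range_comp, Ideal.map_map,
      hx]
    congr 1
    · congr 2
      funext i
      exact hX i
    · congr 1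
      ext a
      exact hC a
  have hsurj : Function.Surjective γ₀ := by
    have h1 : IsAdicComplete (maximalIdeal (MvPowerSeries (Fin r) 𝒪)) (MvPowerSeries (Fin r) 𝒪) :=
      isAdicComplete_mvPowerSeries
    have h3 : IsHausdorff ((maximalIdeal (MvPowerSeries (Fin r) 𝒪)).map γ₀) R := by
      rw [hmap]; infer_instance
    apply surjective_of_mk_map_comp_surjective (I := maximalIdeal (MvPowerSeries (Fin r) 𝒪))
    rw [hmap]
    intro y
    obtain ⟨o, ho⟩ := hres y
    refine ⟨MvPowerSeries.C o, ?_⟩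
    rw [RingHom.comp_apply, hC]
    exact ho
  refine ⟨{ γ₀ with commutes' := fun a => ?_ }, hsurj⟩
  show γ₀ (algebraMap 𝒪 (MvPowerSeries (Fin r) 𝒪) a) = algebraMap 𝒪 R a
  rw [MvPowerSeries.algebraMap_apply]
  exact hC a

end Fermat.Agent.S56
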