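import Fermat.Agent.S56.Tan.Defs

/-!
# S56 / Tan / BC : stability of the easy local conditions under base change      key `S56/BC-DET` (~120 lines)

`(ρ.baseChangeAlong φ hφ).ρ σ = (ρ.ρ σ).baseChange B` for the algebra structure `φ.toAlgebra` (rfl).
`bc_det`: `(p : B) = φ p ∈ maximalIdeal B` (`map_nonunit`); `LinearMap.det_baseChange`: `det = φ (det)`; `φ` maps `span {p ^ n}` into `span {p ^ n}` (`Ideal.mem_span_singleton'`, `map_mul`, `map_natCast`).
`bc_unram`: `LinearMap.baseChange_one` (as in the Prelude definition of `baseChangeAlong`).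
`bc_unip`: `LinearMap.charpoly_baseChange`, `Polynomial.map_pow`, `map_sub`, `map_X`, `map_one`.
-/

set_option autoImplicit false

open IsLocalRing

noncomputable section

namespace Fermat.Agent.S56

variable {A B : Type} [CommRing A] [IsLocalRing A] [CommRing B] [IsLocalRing B]

/-- [S56/BC-DET] -/
theorem bc_det {p : ℕ} (φ : A →+* B) (hφ : IsLocalHom φ) {ρ : GaloisRepAdic A}
    (h : ρ.DetIsCyclotomic p) : (ρ.baseChangeAlong φ hφ).DetIsCyclotomic p := by
  letI : Algebra A B := φ.toAlgebra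
  refine ⟨?_, fun n σ a ha => ?_⟩
  · have h1 := map_nonunit φ (p : A) h.1
    rwa [map_natCast] at h1
  · have h1 := h.2 n σ a ha
    obtain ⟨c, hc⟩ := Ideal.mem_span_singleton'.1 h1
    have h2 : LinearMap.det ((ρ.baseChangeAlong φ hφ).ρ σ) = φ (LinearMap.det (ρ.ρ σ)) :=
      LinearMap.det_baseChange (ρ.ρ σ)
    rw [h2, Ideal.mem_span_singleton']
    refine ⟨φ c, ?_⟩
    have h3 := congrArg φ hc
    rw [map_mul, map_sub, map_natCast, map_natCast] at h3
    exact h3

/-- [S56/BC-DET] -/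
theorem bc_unram {q : ℕ} (φ : A →+* B) (hφ : IsLocalHom φ) {ρ : GaloisRepAdic A}
    (h : ρ.IsUnramifiedAt q) : (ρ.baseChangeAlong φ hφ).IsUnramifiedAt q := by
  letI : Algebra A B := φ.toAlgebra
  intro P hP σ hσ
  show (ρ.ρ σ).baseChange B = 1
  rw [h P hP σ hσ, LinearMap.baseChange_one]

/-- [S56/BC-DET] -/
theorem bc_unip {q : ℕ} (φ : A →+* B) (hφ : IsLocalHom φ) {ρ : GaloisRepAdic A}
    (h : ρ.IsUnipotentOnInertiaAt q) : (ρ.baseChangeAlong φ hφ).IsUnipotentOnInertiaAt q := by
  letI : Algebra A B := φ.toAlgebra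
  intro P hP σ hσ
  show LinearMap.charpoly ((ρ.ρ σ).baseChange B) = _
  rw [LinearMap.charpoly_baseChange, h P hP σ hσ, Polynomial.map_pow, Polynomial.map_sub,
    Polynomial.map_X, Polynomial.map_one]

end Fermat.Agent.S56
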