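import Fermat.Agent.S56.Tan.Res
import Fermat.Agent.S55.E.Chi

/-!
# S56 / Tan / Coc : lifts to `k[ε]` and cocycles      keys `S56/TAN-COC1` (~250 lines), `S56/TAN-COC2` (~60 lines)

## COC1 `exists_cocycle`
`r σ = kmat (r0 σ) (b σ)`, `b σ = msnd (r σ)` (`kmat_eta`, `hs`).  `C σ := b σ * (r0 σ)⁻¹`, so `b σ = C σ * r0 σ`.
* trace zero: `p = 0` in `Keps 𝒪` (`kmk_natCast`, `hp𝒪`: `residue 𝒪 p = 0`), so `Ideal.span {(p ^ 1 : ℕ)} = ⊥`; `hdet.2 1 σ a` with `a = (cycloChar p σ).val` (`S55.E.cycloChar_spec`): `LinearMap.det (ρ.ρ σ) = (a : Keps 𝒪)`;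
  `LinearMap.det (ρ.ρ σ) = (r σ).det` (`LinearMap.det_toMatrix`, `h`); `kmat_det_lift`: `kmk (det r0) (det r0 * tr C) = kmk a 0`; `det (r0 σ) ≠ 0`.
* cocycle: `HasMatrix.map_mul h`, `kmat_mul`, `kmat_inj`: `b (σ τ) = r0 σ * b τ + b σ * r0 τ`; multiply by `(r0 (σ τ))⁻¹` on the right: `C (σ τ) = r0 σ * C τ * (r0 σ)⁻¹ + C σ`.
* `LC1`: `HasMatrix.matCont h 2`, `keps_maximalIdeal_sq`: `r σ = 1` for `σ` fixing `L`; so `C σ = 0`, `r0 σ = 1` there and `C (g u) = r0 g * C u * (r0 g)⁻¹ + C g = C g`.  `U = L.fixingSubgroup ∈ lvlQ.sets`.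

## COC2 `isEquiv_of_cohomologous`
`M = kunit 1 (-Y) = 1 - ε Y`:  `M * liftMat r0 c' σ * M⁻¹ = liftMat r0 c σ` (`kmat_mul`, `kmat_inj`); `HasMatrix.conj h' M`, `HasMatrix.isEquiv`.
-/

set_option autoImplicit false

open IsLocalRing Fermat.Agent.S53 Fermat.Agent.S55

noncomputable section

namespace Fermat.Agent.S56

variable {𝒪 : Type} [CommRing 𝒪] [IsLocalRing 𝒪]

theorem coc_natCast_eq_zero (p : ℕ) (hp𝒪 : (p : 𝒪) ∈ maximalIdeal 𝒪) : ((p : ℕ) : Keps 𝒪) = 0 := by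
  rw [kmk_natCast, kmk_zero, kmk_inj]
  refine ⟨?_, rfl⟩
  rw [← map_natCast (residue 𝒪) p]
  exact (residue_eq_zero_iff _).2 hp𝒪

theorem coc_val_inv_mul (g : GL (Fin 2) (ResidueField 𝒪)) :
    ((g⁻¹ : GL (Fin 2) (ResidueField 𝒪)) : M2 (ResidueField 𝒪)) * (g : M2 (ResidueField 𝒪)) = 1 := by
  rw [← Units.val_mul, inv_mul_cancel, Units.val_one]

theorem coc_val_mul_inv (g : GL (Fin 2) (ResidueField 𝒪)) :
    (g : M2 (ResidueField 𝒪)) * ((g⁻¹ : GL (Fin 2) (ResidueField 𝒪)) : M2 (ResidueField 𝒪)) = 1 := by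
  rw [← Units.val_mul, mul_inv_cancel, Units.val_one]

/-- [S56/TAN-COC1] -/
theorem exists_cocycle (p : ℕ) [Fact p.Prime] (hp𝒪 : (p : 𝒪) ∈ maximalIdeal 𝒪)
    {r0 : Gal →* GL (Fin 2) (ResidueField 𝒪)}
    {ρ : GaloisRepAdic (Keps 𝒪)} {r : Gal → M2 (Keps 𝒪)} (h : HasMatrix ρ r)
    (hs : ∀ σ, mfst (r σ) = (r0 σ : M2 (ResidueField 𝒪))) (hdet : ρ.DetIsCyclotomic p) :
    ∃ c : ↥(Z1 lvlQ (adRho r0)), r = liftMat r0 (c : Gal → Ad0 (ResidueField 𝒪)) := by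
  obtain ⟨C, hC⟩ : ∃ C : Gal → M2 (ResidueField 𝒪), ∀ σ, C σ =
    msnd (r σ) * (((r0 σ)⁻¹ : GL (Fin 2) (ResidueField 𝒪)) : M2 (ResidueField 𝒪)) :=
    ⟨_, fun _ => rfl⟩
  have hr : ∀ σ, r σ = kmat (r0 σ : M2 (ResidueField 𝒪)) (C σ * (r0 σ : M2 (ResidueField 𝒪))) := by
    intro σ
    rw [hC, Matrix.mul_assoc, coc_val_inv_mul, Matrix.mul_one, ← hs σ, kmat_eta]
  have hp0 := coc_natCast_eq_zero (𝒪 := 𝒪) p hp𝒪
  -- trace zero
  have htr : ∀ σ, (C σ).trace = 0 := by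
    intro σ
    have h1 := hdet.2 1 σ ((ExtCitation.cycloChar p σ : (ZMod p)ˣ) : ZMod p).val (fun μ hμ => by
      rw [pow_one] at hμ
      exact S55.E.cycloChar_spec p σ hμ)
    rw [pow_one, hp0, Ideal.span_singleton_zero, Ideal.mem_bot, sub_eq_zero] at h1
    obtain ⟨bs, hb⟩ := h
    rw [← LinearMap.det_toMatrix bs, hb, hr, kmat_det_lift, kmk_natCast, kmk_inj] at h1
    have h2 : (r0 σ : M2 (ResidueField 𝒪)).det ≠ 0 :=
      ((Matrix.isUnit_iff_isUnit_det _).1 (r0 σ).isUnit).ne_zero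
    exact (mul_eq_zero.1 h1.2).resolve_left h2
  -- cocycle
  have hcoc : ∀ σ τ, C (σ * τ) = (r0 σ : M2 (ResidueField 𝒪)) * C τ *
      (((r0 σ)⁻¹ : GL (Fin 2) (ResidueField 𝒪)) : M2 (ResidueField 𝒪)) + C σ := by
    intro σ τ
    have h1 := HasMatrix.map_mul h σ τ
    rw [hr, hr σ, hr τ, kmat_mul, kmat_inj] at h1
    have h2 := congrArg (fun Z => Z * (((r0 (σ * τ))⁻¹ : GL (Fin 2) (ResidueField 𝒪)) :
      M2 (ResidueField 𝒪))) h1.2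
    beta_reduce at h2
    rw [Matrix.mul_assoc, coc_val_mul_inv, Matrix.mul_one] at h2
    rw [h2, map_mul, mul_inv_rev, Units.val_mul, Matrix.add_mul]
    congr 1
    · calc (r0 σ : M2 (ResidueField 𝒪)) * (C τ * (r0 τ : M2 (ResidueField 𝒪))) *
            ((((r0 τ)⁻¹ : GL (Fin 2) (ResidueField 𝒪)) : M2 (ResidueField 𝒪)) *
              (((r0 σ)⁻¹ : GL (Fin 2) (ResidueField 𝒪)) : M2 (ResidueField 𝒪)))
          = (r0 σ : M2 (ResidueField 𝒪)) * C τ * ((r0 τ : M2 (ResidueField 𝒪)) *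
            (((r0 τ)⁻¹ : GL (Fin 2) (ResidueField 𝒪)) : M2 (ResidueField 𝒪))) *
              (((r0 σ)⁻¹ : GL (Fin 2) (ResidueField 𝒪)) : M2 (ResidueField 𝒪)) := by
            simp only [Matrix.mul_assoc]
        _ = _ := by rw [coc_val_mul_inv, Matrix.mul_one]
    · calc C σ * (r0 σ : M2 (ResidueField 𝒪)) * (r0 τ : M2 (ResidueField 𝒪)) *
            ((((r0 τ)⁻¹ : GL (Fin 2) (ResidueField 𝒪)) : M2 (ResidueField 𝒪)) *
              (((r0 σ)⁻¹ : GL (Fin 2) (ResidueField 𝒪)) : M2 (ResidueField 𝒪)))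
          = C σ * ((r0 σ : M2 (ResidueField 𝒪)) * ((r0 τ : M2 (ResidueField 𝒪)) *
            (((r0 τ)⁻¹ : GL (Fin 2) (ResidueField 𝒪)) : M2 (ResidueField 𝒪))) *
              (((r0 σ)⁻¹ : GL (Fin 2) (ResidueField 𝒪)) : M2 (ResidueField 𝒪))) := by
            simp only [Matrix.mul_assoc]
        _ = _ := by rw [coc_val_mul_inv, Matrix.mul_one, coc_val_mul_inv, Matrix.mul_one]
  -- level
  obtain ⟨L, hL, hLr⟩ := HasMatrix.matCont h 2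
  have hlev : ∀ u ∈ L.fixingSubgroup, C u = 0 := by
    intro u hu
    have h1 : r u = 1 := by
      ext i j
      have h2 := hLr u (fun x hx => (IntermediateField.mem_fixingSubgroup_iff _ u).1 hu x hx) i j
      rw [keps_maximalIdeal_sq, Ideal.mem_bot, Matrix.sub_apply, sub_eq_zero] at h2
      exact h2
    rw [hr, kmat_one, kmat_inj] at h1
    have h3 := h1.2
    rw [h1.1, Matrix.mul_one] at h3
    exact h3
  let c : Gal → Ad0 (ResidueField 𝒪) := fun σ => ⟨C σ, mem_ad0.2 (htr σ)⟩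
  have hcZ : c ∈ Z1 lvlQ (adRho r0) := by
    refine ⟨⟨L.fixingSubgroup, ⟨L, hL, rfl⟩, fun g u hu => ?_⟩, fun g g' => ?_⟩
    · apply Subtype.ext
      show C (g * u) = C g
      rw [hcoc, hlev u hu, Matrix.mul_zero, Matrix.zero_mul, zero_add]
    · apply Subtype.ext
      rw [AddSubgroup.coe_add, coe_adRho]
      exact hcoc g g'
  refine ⟨⟨c, hcZ⟩, ?_⟩
  funext σ
  rw [hr]
  rfl

/-- [S56/TAN-COC2] -/
theorem isEquiv_of_cohomologous {r0 : Gal →* GL (Fin 2) (ResidueField 𝒪)}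
    {c c' : Gal → Ad0 (ResidueField 𝒪)} {ρ ρ' : GaloisRepAdic (Keps 𝒪)}
    (h : HasMatrix ρ (liftMat r0 c)) (h' : HasMatrix ρ' (liftMat r0 c'))
    (Y : Ad0 (ResidueField 𝒪)) (hY : ∀ σ, c σ - c' σ = adRho r0 σ Y - Y) : ρ.IsEquiv ρ' := by
  have h2 := HasMatrix.conj h' (kunit (𝒪 := 𝒪) 1 (-(Y : M2 (ResidueField 𝒪))))
  have h3 : (fun σ => ((kunit (𝒪 := 𝒪) 1 (-(Y : M2 (ResidueField 𝒪))) : (M2 (Keps 𝒪))ˣ) : M2 (Keps 𝒪)) *
      kmat (r0 σ : M2 (ResidueField 𝒪)) ((c' σ : M2 (ResidueField 𝒪)) * (r0 σ : M2 (ResidueField 𝒪))) *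
      (((kunit (𝒪 := 𝒪) 1 (-(Y : M2 (ResidueField 𝒪))))⁻¹ : (M2 (Keps 𝒪))ˣ) : M2 (Keps 𝒪))) =
      liftMat r0 c := by
    funext σ
    show kmat _ _ * kmat _ _ * kmat _ _ = kmat _ _
    rw [kmat_mul, kmat_mul, kmat_inj]
    have e := congrArg (fun Z : Ad0 (ResidueField 𝒪) => (Z : M2 (ResidueField 𝒪))) (hY σ)
    simp only [AddSubgroupClass.coe_sub, coe_adRho] at e
    have e2 : (c σ : M2 (ResidueField 𝒪)) = (c' σ : M2 (ResidueField 𝒪)) +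
        ((r0 σ : M2 (ResidueField 𝒪)) * Y *
          (((r0 σ)⁻¹ : GL (Fin 2) (ResidueField 𝒪)) : M2 (ResidueField 𝒪)) - Y) := by
      rw [← e]; abel
    constructor
    · simp
    · rw [e2]
      simp only [Units.val_one, inv_one, Matrix.one_mul, Matrix.mul_one, Matrix.add_mul,
        Matrix.sub_mul, Matrix.neg_mul, neg_neg, Matrix.mul_assoc, coc_val_inv_mul]
      abel
  have h4 : HasMatrix ρ' (liftMat r0 c) := by
    rw [← h3]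
    exact h2
  exact HasMatrix.isEquiv h h4

end Fermat.Agent.S56
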