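import Fermat.Agent.S53.Final
import Fermat.Agent.S55.Coh.Arith
import Fermat.Prelude.Def_GaloisRep_LocalConditions
import Fermat.Prelude.Def_GaloisRep_StrictOrdinary
import Fermat.Prelude.Def_GaloisRep_Flat

/-!
# S56 / Tan / Defs : `ad⁰ ρ̄` as a coefficient module of the S55 cohomology formalism, lifts to `k[ε]`
(owner helper21)      THE BASE DEFINITIONS OF S56 (`S56/Defs.lean` imports this file).

* `r0 : Gal →* GL (Fin 2) k` : the residual representation in matrix form (`Gal = GQ`).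
* `M0 k` (an `AddSubgroup` of `M2 k`) : trace zero matrices; `ad0 k = M0 k`, `Ad0 k = ↥(M0 k)` (abbreviations).
* `rhoAd r0`, `adRho r0 = rhoAd r0 : Gal →* AddMonoid.End (Ad0 k)` (abbreviation), `σ X = r0 σ * X * (r0 σ)⁻¹`.
* `liftMat r0 c σ = (1 + ε c σ) r0 σ ∈ M₂(k[ε])`; `liftMat_eq : liftMat r0 c σ = kmat (r0 σ) (c σ * r0 σ)` (`rfl`).
* `IsType 𝒟 r0 c` : the lift attached to `c` is (the matrix of) a representation of type `𝒟`.
-/

set_option autoImplicit false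

open IsLocalRing Fermat.Agent.S53 Fermat.Agent.S55

noncomputable section

namespace Fermat.Agent.S56

section

variable {k : Type} [Field k]

/-- trace zero matrices -/
def M0 (k : Type) [Field k] : AddSubgroup (M2 k) where
  carrier := {X | X.trace = 0}
  add_mem' := fun {a b} (ha : a.trace = 0) (hb : b.trace = 0) => by
    show (a + b).trace = 0
    rw [Matrix.trace_add, ha, hb, add_zero]
  zero_mem' := Matrix.trace_zero _ _
  neg_mem' := fun {a} (ha : a.trace = 0) => by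
    show (-a).trace = 0
    rw [Matrix.trace_neg, ha, neg_zero]

theorem mem_M0 {X : M2 k} : X ∈ M0 k ↔ X.trace = 0 := Iff.rfl

theorem conj_mem_M0 (g : GL (Fin 2) k) {X : M2 k} (hX : X ∈ M0 k) :
    (g : M2 k) * X * ((g⁻¹ : GL (Fin 2) k) : M2 k) ∈ M0 k := by
  rw [mem_M0, Matrix.trace_mul_cycle, ← Units.val_mul, inv_mul_cancel, Units.val_one, one_mul]
  exact hX

/-- conjugation by `g` on trace zero matrices -/
def adOne (g : GL (Fin 2) k) : AddMonoid.End (M0 k) where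
  toFun X := ⟨(g : M2 k) * X.1 * ((g⁻¹ : GL (Fin 2) k) : M2 k), conj_mem_M0 g X.2⟩
  map_zero' := by ext1; simp
  map_add' X Y := by ext1; simp [mul_add, add_mul]

@[simp] theorem adOne_coe (g : GL (Fin 2) k) (X : M0 k) :
    ((adOne g X : M0 k) : M2 k) = (g : M2 k) * X.1 * ((g⁻¹ : GL (Fin 2) k) : M2 k) := rfl

/-- the adjoint action on trace zero matrices -/
def rhoAd {G : Type*} [Group G] (r0 : G →* GL (Fin 2) k) : G →* AddMonoid.End (M0 k) where
  toFun g := adOne (r0 g)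
  map_one' := by
    ext X : 2
    simp
  map_mul' g h := by
    ext X : 2
    show ((adOne (r0 (g * h)) X : M0 k) : M2 k) = ((adOne (r0 g) (adOne (r0 h) X) : M0 k) : M2 k)
    simp only [map_mul, adOne_coe, mul_inv_rev, Units.val_mul, mul_assoc]

@[simp] theorem rhoAd_coe {G : Type*} [Group G] (r0 : G →* GL (Fin 2) k) (g : G) (X : M0 k) :
    ((rhoAd r0 g X : M0 k) : M2 k) = (r0 g : M2 k) * X.1 * (((r0 g)⁻¹ : GL (Fin 2) k) : M2 k) := rfl

/-- `(1 + ε c σ) r0 σ` -/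
def liftMat (r0 : GQ →* GL (Fin 2) k) (c : GQ → M0 k) (σ : GQ) : M2 (DualNumber k) :=
  Matrix.of fun i j => TrivSqZeroExt.inl ((r0 σ : M2 k) i j) +
    TrivSqZeroExt.inr (((c σ).1 * (r0 σ : M2 k)) i j)

end

/-- trace zero matrices -/
abbrev ad0 (k : Type) [Field k] : AddSubgroup (M2 k) := M0 k

theorem mem_ad0 {k : Type} [Field k] {X : M2 k} : X ∈ ad0 k ↔ X.trace = 0 := Iff.rfl

/-- trace zero matrices, as a type -/
abbrev Ad0 (k : Type) [Field k] : Type := ↥(M0 k)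

section

variable {k : Type} [Field k]

theorem conj_mem_ad0 (g : GL (Fin 2) k) {X : M2 k} (hX : X ∈ ad0 k) :
    (g : M2 k) * X * ((g⁻¹ : GL (Fin 2) k) : M2 k) ∈ ad0 k := conj_mem_M0 g hX

/-- the adjoint action on trace zero matrices -/
abbrev adRho (r0 : Gal →* GL (Fin 2) k) : Gal →* AddMonoid.End (Ad0 k) := rhoAd r0

theorem coe_adRho (r0 : Gal →* GL (Fin 2) k) (σ : Gal) (X : Ad0 k) :
    ((adRho r0 σ X : Ad0 k) : M2 k) = (r0 σ : M2 k) * X * (((r0 σ)⁻¹ : GL (Fin 2) k) : M2 k) := rfl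

end

variable {𝒪 : Type} [CommRing 𝒪] [IsLocalRing 𝒪]

/-- `a + ε b` -/
def kmk (a b : ResidueField 𝒪) : Keps 𝒪 :=
  (TrivSqZeroExt.inl a + TrivSqZeroExt.inr b : DualNumber (ResidueField 𝒪))

/-- `X + ε Y` -/
def kmat (X Y : M2 (ResidueField 𝒪)) : M2 (Keps 𝒪) := Matrix.of fun i j => kmk (X i j) (Y i j)

/-- the lift `(1 + ε c) r0` -/
theorem liftMat_eq (r0 : Gal →* GL (Fin 2) (ResidueField 𝒪)) (c : Gal → Ad0 (ResidueField 𝒪)) (σ : Gal) :
    (liftMat r0 c σ : M2 (Keps 𝒪)) =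
      kmat (r0 σ : M2 (ResidueField 𝒪)) ((c σ : M2 (ResidueField 𝒪)) * (r0 σ : M2 (ResidueField 𝒪))) :=
  rfl

/-- the lift attached to `c` is of type `𝒟` -/
def IsType (𝒟 : ∀ ⦃A : Type⦄ [CommRing A] [IsLocalRing A] [Algebra 𝒪 A], GaloisRepAdic A → Prop)
    (r0 : Gal →* GL (Fin 2) (ResidueField 𝒪)) (c : Gal → Ad0 (ResidueField 𝒪)) : Prop :=
  ∃ ρ : GaloisRepAdic (Keps 𝒪), HasMatrix ρ (liftMat r0 c) ∧ 𝒟 ρ

end Fermat.Agent.S56
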