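import Fermat.Agent.S56.Tan.Kmat

/-!
# S56 / Tan / Hom : algebra homomorphisms `R →ₐ[𝒪] k[ε]`      key `S56/TAN-HOM` (~120 lines)

`kfst_algHom`: `o : 𝒪` with `residue R (algebraMap o) = residue R a` (`hres`); `a - algebraMap o ∈ maximalIdeal R`; `φ` is local (`S53.isLocalHom_of_algHom keps_residue_surjective φ`), so `φ (a - algebraMap o) ∈ maximalIdeal (Keps 𝒪)`, i.e. `kfst (φ a) = kfst (algebraMap o) = residue 𝒪 o` (`keps_mem_maximalIdeal`, `keps_algebraMap'`, `AlgHom.commutes`).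
`kfst_algHom_eq`: both sides are `residue 𝒪 o`.
`surjective_of_ksnd_ne_zero`: `a' = a - algebraMap o`, `φ a' = kmk 0 b`, `b ≠ 0`; `kmk u v = φ (algebraMap o_u + algebraMap o_w * a')`, `residue o_u = u`, `residue o_w = v / b`.
-/

set_option autoImplicit false

open IsLocalRing Fermat.Agent.S53

noncomputable section

namespace Fermat.Agent.S56

variable {𝒪 : Type} [CommRing 𝒪] [IsLocalRing 𝒪]
  {R : Type} [CommRing R] [IsLocalRing R] [Algebra 𝒪 R]

/-- [S56/TAN-HOM] -/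
theorem kfst_algHom (φ : R →ₐ[𝒪] Keps 𝒪) {a : R} {o : 𝒪}
    (h : residue R (algebraMap 𝒪 R o) = residue R a) : kfst (φ a) = residue 𝒪 o := by
  have hloc : IsLocalHom (φ : R →+* Keps 𝒪) := isLocalHom_of_algHom keps_residue_surjective φ
  have h1 : a - algebraMap 𝒪 R o ∈ maximalIdeal R := by
    rw [← residue_eq_zero_iff, map_sub, h, sub_self]
  have h2 : (φ : R →+* Keps 𝒪) (a - algebraMap 𝒪 R o) ∈ maximalIdeal (Keps 𝒪) := by
    rw [mem_maximalIdeal, mem_nonunits_iff] at h1 ⊢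
    exact fun hu => h1 (hloc.map_nonunit _ hu)
  rw [keps_mem_maximalIdeal] at h2
  have h3 : (φ : R →+* Keps 𝒪) (a - algebraMap 𝒪 R o) = φ a - algebraMap 𝒪 (Keps 𝒪) o := by
    rw [map_sub]
    congr 1
    exact φ.commutes o
  rw [h3, kfst_sub, keps_algebraMap', kfst_kmk, sub_eq_zero] at h2
  exact h2

/-- [S56/TAN-HOM] -/
theorem kfst_algHom_eq (hres : Function.Surjective (residue R ∘ algebraMap 𝒪 R))
    (φ ψ : R →ₐ[𝒪] Keps 𝒪) (a : R) : kfst (φ a) = kfst (ψ a) := by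
  obtain ⟨o, ho⟩ := hres (residue R a)
  rw [kfst_algHom φ ho, kfst_algHom ψ ho]

/-- [S56/TAN-HOM] -/
theorem surjective_of_ksnd_ne_zero (hres : Function.Surjective (residue R ∘ algebraMap 𝒪 R))
    (φ : R →ₐ[𝒪] Keps 𝒪) {a : R} (ha : ksnd (φ a) ≠ 0) : Function.Surjective φ := by
  obtain ⟨o, ho⟩ := hres (residue R a)
  have h1 := kfst_algHom φ ho
  intro y
  obtain ⟨ou, hou⟩ := residue_surjective (kfst y)
  obtain ⟨ow, how⟩ := residue_surjective (ksnd y / ksnd (φ a))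
  refine ⟨algebraMap 𝒪 R ou + algebraMap 𝒪 R ow * (a - algebraMap 𝒪 R o), ?_⟩
  rw [map_add, map_mul, map_sub, φ.commutes, φ.commutes, φ.commutes]
  apply keps_ext
  · simp only [kfst_add, kfst_mul, kfst_sub, keps_algebraMap', kfst_kmk, h1, sub_self, mul_zero,
      add_zero, hou]
  · simp only [ksnd_add, ksnd_mul, ksnd_sub, kfst_sub, keps_algebraMap', kfst_kmk, ksnd_kmk, how,
      sub_zero, zero_mul, add_zero, zero_add]
    exact div_mul_cancel₀ _ ha

end Fermat.Agent.S56
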