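import Fermat.Agent.S56.Tan.Defs

/-!
# S56 / Tan / Kmat : calculus in `k[ε]` and `M₂(k[ε])`      (helper21)
-/

set_option autoImplicit false

open IsLocalRing Fermat.Agent.S53 Fermat.Agent.S55

noncomputable section

namespace Fermat.Agent.S56

variable {𝒪 : Type} [CommRing 𝒪] [IsLocalRing 𝒪]

local notation "k" => ResidueField 𝒪

/-- first component -/
def kfst (x : Keps 𝒪) : k := TrivSqZeroExt.fst (x : DualNumber (ResidueField 𝒪))

/-- second component -/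
def ksnd (x : Keps 𝒪) : k := TrivSqZeroExt.snd (x : DualNumber (ResidueField 𝒪))

@[simp] theorem kfst_kmk (a b : k) : kfst (kmk a b : Keps 𝒪) = a := by
  simp [kfst, kmk]

@[simp] theorem ksnd_kmk (a b : k) : ksnd (kmk a b : Keps 𝒪) = b := by
  simp [ksnd, kmk]

theorem kmk_eta (x : Keps 𝒪) : kmk (kfst x) (ksnd x) = x := by
  show (TrivSqZeroExt.inl _ + TrivSqZeroExt.inr _ : DualNumber (ResidueField 𝒪)) = x
  exact TrivSqZeroExt.inl_fst_add_inr_snd_eq (x : DualNumber (ResidueField 𝒪))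

theorem kmk_inj {a b a' b' : k} : (kmk a b : Keps 𝒪) = kmk a' b' ↔ a = a' ∧ b = b' := by
  constructor
  · intro h
    exact ⟨by simpa using congrArg kfst h, by simpa using congrArg ksnd h⟩
  · rintro ⟨rfl, rfl⟩
    rfl

theorem keps_ext {x y : Keps 𝒪} (h1 : kfst x = kfst y) (h2 : ksnd x = ksnd y) : x = y := by
  rw [← kmk_eta x, ← kmk_eta y, h1, h2]

@[simp] theorem kfst_add (x y : Keps 𝒪) : kfst (x + y) = kfst x + kfst y := rfl
@[simp] theorem ksnd_add (x y : Keps 𝒪) : ksnd (x + y) = ksnd x + ksnd y := rfl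
@[simp] theorem kfst_sub (x y : Keps 𝒪) : kfst (x - y) = kfst x - kfst y := rfl
@[simp] theorem ksnd_sub (x y : Keps 𝒪) : ksnd (x - y) = ksnd x - ksnd y := rfl
@[simp] theorem kfst_neg (x : Keps 𝒪) : kfst (-x) = - kfst x := rfl
@[simp] theorem ksnd_neg (x : Keps 𝒪) : ksnd (-x) = - ksnd x := rfl
@[simp] theorem kfst_zero : kfst (0 : Keps 𝒪) = 0 := rfl
@[simp] theorem ksnd_zero : ksnd (0 : Keps 𝒪) = 0 := rfl
@[simp] theorem kfst_one : kfst (1 : Keps 𝒪) = 1 := rfl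
@[simp] theorem ksnd_one : ksnd (1 : Keps 𝒪) = 0 := rfl
@[simp] theorem kfst_mul (x y : Keps 𝒪) : kfst (x * y) = kfst x * kfst y := rfl
@[simp] theorem ksnd_mul (x y : Keps 𝒪) : ksnd (x * y) = kfst x * ksnd y + ksnd x * kfst y := by
  have h := TrivSqZeroExt.snd_mul (show DualNumber (ResidueField 𝒪) from x)
    (show DualNumber (ResidueField 𝒪) from y)
  show TrivSqZeroExt.snd ((show DualNumber (ResidueField 𝒪) from x) *
    (show DualNumber (ResidueField 𝒪) from y)) = _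
  rw [h]
  simp [kfst, ksnd, mul_comm]

theorem kmk_add (a b a' b' : k) : (kmk a b + kmk a' b' : Keps 𝒪) = kmk (a + a') (b + b') :=
  keps_ext (by simp) (by simp)

theorem kmk_sub (a b a' b' : k) : (kmk a b - kmk a' b' : Keps 𝒪) = kmk (a - a') (b - b') :=
  keps_ext (by simp) (by simp)

theorem kmk_mul (a b a' b' : k) : (kmk a b * kmk a' b' : Keps 𝒪) = kmk (a * a') (a * b' + b * a') :=
  keps_ext (by simp) (by simp)

theorem kmk_one : (1 : Keps 𝒪) = kmk 1 0 := keps_ext (by simp) (by simp)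

theorem kmk_zero : (0 : Keps 𝒪) = kmk 0 0 := keps_ext (by simp) (by simp)

/-- `kfst` as a ring hom -/
def kfstHom : Keps 𝒪 →+* k where
  toFun := kfst
  map_one' := rfl
  map_mul' := kfst_mul
  map_zero' := rfl
  map_add' := kfst_add

@[simp] theorem kfstHom_apply (x : Keps 𝒪) : kfstHom x = kfst x := rfl

@[simp] theorem kfst_natCast (n : ℕ) : kfst ((n : Keps 𝒪)) = (n : k) := map_natCast kfstHom n

@[simp] theorem ksnd_natCast (n : ℕ) : ksnd ((n : Keps 𝒪)) = 0 := by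
  induction n with
  | zero => simp
  | succ n ih => rw [Nat.cast_succ, ksnd_add, ih, ksnd_one, add_zero]

theorem kmk_natCast (n : ℕ) : ((n : Keps 𝒪)) = kmk (n : k) 0 := keps_ext (by simp) (by simp)

theorem keps_algebraMap' (a : 𝒪) : algebraMap 𝒪 (Keps 𝒪) a = kmk (residue 𝒪 a) 0 :=
  keps_ext (by rw [keps_algebraMap, kfst_kmk]; rfl) (by rw [keps_algebraMap, ksnd_kmk]; rfl)

theorem keps_isUnit_iff (x : Keps 𝒪) : IsUnit x ↔ kfst x ≠ 0 := by
  have h : IsUnit (x : DualNumber (ResidueField 𝒪)) ↔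
      IsUnit (TrivSqZeroExt.fst (x : DualNumber (ResidueField 𝒪))) :=
    TrivSqZeroExt.isUnit_iff_isUnit_fst
  exact h.trans isUnit_iff_ne_zero

theorem keps_mem_maximalIdeal (x : Keps 𝒪) : x ∈ maximalIdeal (Keps 𝒪) ↔ kfst x = 0 := by
  rw [mem_maximalIdeal, mem_nonunits_iff, keps_isUnit_iff, not_not]

theorem keps_maximalIdeal_sq : maximalIdeal (Keps 𝒪) ^ 2 = ⊥ := by
  rw [eq_bot_iff, pow_two, Ideal.mul_le]
  intro x hx y hy
  rw [keps_mem_maximalIdeal] at hx hy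
  rw [Ideal.mem_bot]
  exact keps_ext (by simp [hx]) (by simp [hx, hy])

instance instIsLocalHomKeps : IsLocalHom (algebraMap 𝒪 (Keps 𝒪)) :=
  keps_isArtinianTestAlgebra.isLocalHom

instance instIsArtinianRingKeps : IsArtinianRing (Keps 𝒪) :=
  keps_isArtinianTestAlgebra.isArtinian

theorem keps_residue_surjective : Function.Surjective (residue (Keps 𝒪) ∘ algebraMap 𝒪 (Keps 𝒪)) :=
  keps_isArtinianTestAlgebra.residue_surjective

/-! ### matrices -/

/-- first component -/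
def mfst (X : M2 (Keps 𝒪)) : M2 k := X.map kfst

/-- second component -/
def msnd (X : M2 (Keps 𝒪)) : M2 k := X.map ksnd

@[simp] theorem mfst_kmat (X Y : M2 k) : mfst (kmat X Y : M2 (Keps 𝒪)) = X := by
  ext i j; simp [mfst, kmat]

@[simp] theorem msnd_kmat (X Y : M2 k) : msnd (kmat X Y : M2 (Keps 𝒪)) = Y := by
  ext i j; simp [msnd, kmat]

theorem kmat_eta (X : M2 (Keps 𝒪)) : kmat (mfst X) (msnd X) = X := by
  ext i j
  exact kmk_eta (X i j)

theorem kmat_inj {X Y X' Y' : M2 k} : (kmat X Y : M2 (Keps 𝒪)) = kmat X' Y' ↔ X = X' ∧ Y = Y' := by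
  constructor
  · intro h
    exact ⟨by simpa using congrArg mfst h, by simpa using congrArg msnd h⟩
  · rintro ⟨rfl, rfl⟩
    rfl

theorem kmat_apply (X Y : M2 k) (i j : Fin 2) : (kmat X Y : M2 (Keps 𝒪)) i j = kmk (X i j) (Y i j) :=
  rfl

theorem kmat_mul (X Y X' Y' : M2 k) :
    (kmat X Y * kmat X' Y' : M2 (Keps 𝒪)) = kmat (X * X') (X * Y' + Y * X') := by
  ext i j
  simp only [Matrix.mul_apply, Fin.sum_univ_two, kmat_apply, kmk_mul, kmk_add, Matrix.add_apply]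
  rw [kmk_inj]
  exact ⟨rfl, by ring⟩

theorem kmat_add (X Y X' Y' : M2 k) :
    (kmat X Y + kmat X' Y' : M2 (Keps 𝒪)) = kmat (X + X') (Y + Y') := by
  ext i j
  simp only [Matrix.add_apply, kmat_apply, kmk_add]

theorem kmat_sub (X Y X' Y' : M2 k) :
    (kmat X Y - kmat X' Y' : M2 (Keps 𝒪)) = kmat (X - X') (Y - Y') := by
  ext i j
  simp only [Matrix.sub_apply, kmat_apply, kmk_sub]

theorem kmat_one : (1 : M2 (Keps 𝒪)) = kmat 1 0 := by
  ext i j
  rw [kmat_apply]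
  by_cases h : i = j
  · subst h
    simp [kmk_one]
  · simp [Matrix.one_apply_ne h, kmk_zero]

theorem kmat_trace (X Y : M2 k) : (kmat X Y : M2 (Keps 𝒪)).trace = kmk X.trace Y.trace := by
  simp only [Matrix.trace_fin_two, kmat_apply, kmk_add]

theorem kmat_det (X Y : M2 k) : (kmat X Y : M2 (Keps 𝒪)).det =
    kmk X.det (X 0 0 * Y 1 1 + Y 0 0 * X 1 1 - (X 0 1 * Y 1 0 + Y 0 1 * X 1 0)) := by
  simp only [Matrix.det_fin_two, kmat_apply, kmk_mul, kmk_sub]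

/-- `det ((1 + ε C) X) = det X (1 + ε tr C)` -/
theorem kmat_det_lift (X C : M2 k) : (kmat X (C * X) : M2 (Keps 𝒪)).det =
    kmk X.det (X.det * C.trace) := by
  rw [kmat_det, kmk_inj]
  refine ⟨rfl, ?_⟩
  simp only [Matrix.mul_apply, Fin.sum_univ_two, Matrix.det_fin_two, Matrix.trace_fin_two]
  ring

theorem kmat_map_algebraMap (X : M2 𝒪) :
    X.map (algebraMap 𝒪 (Keps 𝒪)) = kmat (X.map (residue 𝒪)) 0 := by
  ext i j
  simp [kmat_apply, keps_algebraMap']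

/-- the unit `g (1 + ε Y)` -/
def kunit (g : GL (Fin 2) k) (Y : M2 k) : (M2 (Keps 𝒪))ˣ where
  val := kmat (g : M2 k) ((g : M2 k) * Y)
  inv := kmat ((g⁻¹ : GL (Fin 2) k) : M2 k) (- (Y * ((g⁻¹ : GL (Fin 2) k) : M2 k)))
  val_inv := by
    rw [kmat_mul, kmat_one, kmat_inj]
    refine ⟨by rw [← Units.val_mul, mul_inv_cancel, Units.val_one], ?_⟩
    rw [Matrix.mul_neg, Matrix.mul_assoc, neg_add_cancel]
  inv_val := by
    rw [kmat_mul, kmat_one, kmat_inj]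
    refine ⟨by rw [← Units.val_mul, inv_mul_cancel, Units.val_one], ?_⟩
    rw [← Matrix.mul_assoc, ← Units.val_mul, inv_mul_cancel, Units.val_one, Matrix.one_mul,
      Matrix.neg_mul, Matrix.mul_assoc, ← Units.val_mul, inv_mul_cancel, Units.val_one,
      Matrix.mul_one, add_neg_cancel]

/-- every unit of `M₂(k[ε])` is of the form `g (1 + ε Y)` -/
theorem exists_kunit (M : (M2 (Keps 𝒪))ˣ) : ∃ (g : GL (Fin 2) k) (Y : M2 k), M = kunit g Y := by
  have h1 : mfst (M : M2 (Keps 𝒪)) * mfst ((M⁻¹ : (M2 (Keps 𝒪))ˣ) : M2 (Keps 𝒪)) = 1 := by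
    have h := M.mul_inv
    rw [← kmat_eta (M : M2 (Keps 𝒪)), ← kmat_eta ((M⁻¹ : (M2 (Keps 𝒪))ˣ) : M2 (Keps 𝒪)), kmat_mul,
      kmat_one, kmat_inj] at h
    exact h.1
  have h2 : mfst ((M⁻¹ : (M2 (Keps 𝒪))ˣ) : M2 (Keps 𝒪)) * mfst (M : M2 (Keps 𝒪)) = 1 := by
    have h := M.inv_mul
    rw [← kmat_eta (M : M2 (Keps 𝒪)), ← kmat_eta ((M⁻¹ : (M2 (Keps 𝒪))ˣ) : M2 (Keps 𝒪)), kmat_mul,
      kmat_one, kmat_inj] at h
    exact h.1
  let g : GL (Fin 2) k := ⟨mfst (M : M2 (Keps 𝒪)), mfst ((M⁻¹ : (M2 (Keps 𝒪))ˣ) : M2 (Keps 𝒪)), h1, h2⟩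
  refine ⟨g, ((g⁻¹ : GL (Fin 2) k) : M2 k) * msnd (M : M2 (Keps 𝒪)), Units.ext ?_⟩
  show (M : M2 (Keps 𝒪)) = kmat (g : M2 k) ((g : M2 k) * (((g⁻¹ : GL (Fin 2) k) : M2 k) * msnd (M : M2 (Keps 𝒪))))
  rw [← Matrix.mul_assoc, ← Units.val_mul, mul_inv_cancel, Units.val_one, Matrix.one_mul]
  exact (kmat_eta _).symm

end Fermat.Agent.S56
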