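import Fermat.Agent.S56.Tan.Hom
import Fermat.Agent.S56.Tan.Coc
import Fermat.Agent.S56.Tan.Alg1
import Fermat.Agent.S56.Tan.Alg2
import Fermat.Agent.S56.Tan.BC

/-!
# S56 / Tan / Main : the tangent space theorem      key `S56/TAN-MAIN` (helper21)

`H = (DQ.R →ₐ[𝒪] Keps 𝒪)`.  Frame `Fr` with `Fr.rt` an entrywise lift of `r0`; `S53.exists_strict`: `rR` with `HasMatrix DQ.ρ rR`, `IsStrict Fr rR`.
For `φ ∈ H`: `ρ_φ = DQ.ρ.baseChangeAlong φ`, matrix `r_φ σ = (rR σ).map φ`, `mfst (r_φ σ) = r0 σ`; `exists_cocycle`: `c_φ`.  `Φ φ = H1.mk c_φ`.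
* `Φ φ ∈ Sel`: `φ` onto: `hbc`, `hSel`.  `φ` not onto: `ksnd (φ a) = 0` for all `a` (`surjective_of_ksnd_ne_zero`), so `c_φ = 0`.
* `Φ` injective: `Φ φ = Φ ψ ⟹ ρ_φ ≅ ρ_ψ` (`isEquiv_of_cohomologous`).  If `φ` (or `ψ`) is onto: uniqueness in `DQ.universal` for `ρ_φ`.  Otherwise `φ a = kmk (kfst (φ a)) 0 = ψ a` (`kfst_algHom_eq`).
So `#H ≤ #Sel ≤ #k ^ r`; `exists_gens_of_card`, `exists_surjective_of_gens`.
-/

set_option autoImplicit false

open IsLocalRing Fermat.Agent.S53 Fermat.Agent.S55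

noncomputable section

namespace Fermat.Agent.S56

theorem isAdicComplete_of_pow_eq_bot {R : Type*} [CommRing R] (I : Ideal R) (n : ℕ)
    (h : I ^ n = ⊥) : IsAdicComplete I R where
  haus' := by
    intro x hx
    have := hx n
    rw [h, SModEq.zero] at this
    simpa using this
  prec' := by
    intro f hf
    refine ⟨f n, fun m => ?_⟩
    rcases le_total m n with hmn | hmn
    · exact hf hmn
    · have := hf hmn
      rw [h] at this
      have h2 : f n = f m := by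
        have h3 : ((⊥ : Ideal R) • (⊤ : Submodule R R)) = ⊥ := by simp
        rw [h3, SModEq.bot] at this
        exact this
      rw [h2]

section

variable {𝒪 : Type} [CommRing 𝒪] [IsLocalRing 𝒪]

instance instIsAdicCompleteKeps : IsAdicComplete (maximalIdeal (Keps 𝒪)) (Keps 𝒪) :=
  isAdicComplete_of_pow_eq_bot _ 2 keps_maximalIdeal_sq

/-- a frame lifting `r0` (only `rt` matters) -/
def frameOf (r0 : Gal →* GL (Fin 2) (ResidueField 𝒪)) : Frame 𝒪 where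
  rt σ := Matrix.of fun i j => (residue_surjective ((r0 σ : M2 (ResidueField 𝒪)) i j)).choose
  g _ := 1
  a _ := 0
  b _ := 0

theorem frameOf_rt (r0 : Gal →* GL (Fin 2) (ResidueField 𝒪)) (σ : Gal) (i j : Fin 2) :
    residue 𝒪 ((frameOf r0).rt σ i j) = (r0 σ : M2 (ResidueField 𝒪)) i j :=
  (residue_surjective ((r0 σ : M2 (ResidueField 𝒪)) i j)).choose_spec

theorem frameOf_map (r0 : Gal →* GL (Fin 2) (ResidueField 𝒪)) :
    (fun σ => ((frameOf r0).rt σ).map (residue 𝒪)) = fun σ => (r0 σ : M2 (ResidueField 𝒪)) := by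
  funext σ
  ext i j
  exact frameOf_rt r0 σ i j

variable {R : Type} [CommRing R] [IsLocalRing R] [Algebra 𝒪 R]

theorem mfst_map_of_strict {r0 : Gal →* GL (Fin 2) (ResidueField 𝒪)} {rR : Gal → M2 R}
    (hs : IsStrict (frameOf r0) rR) (φ : R →ₐ[𝒪] Keps 𝒪) (σ : Gal) :
    mfst ((rR σ).map φ) = (r0 σ : M2 (ResidueField 𝒪)) := by
  ext i j
  show kfst (φ (rR σ i j)) = _
  rw [← frameOf_rt r0 σ i j]
  apply kfst_algHom
  have h := hs σ i j
  rw [← residue_eq_zero_iff, map_sub, sub_eq_zero] at h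
  exact h.symm

theorem isStrict_map {r0 : Gal →* GL (Fin 2) (ResidueField 𝒪)} {rR : Gal → M2 R}
    (hs : IsStrict (frameOf r0) rR) (φ : R →ₐ[𝒪] Keps 𝒪) :
    IsStrict (frameOf r0) (fun σ => (rR σ).map φ) := by
  intro σ i j
  rw [keps_mem_maximalIdeal, kfst_sub, keps_algebraMap', kfst_kmk, sub_eq_zero, frameOf_rt]
  exact congrFun (congrFun (mfst_map_of_strict hs φ σ) i) j

/-- if `ksnd ∘ φ = 0` the cocycle of `φ` vanishes -/
theorem cocycle_eq_zero {r0 : Gal →* GL (Fin 2) (ResidueField 𝒪)} {rR : Gal → M2 R}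
    (φ : R →ₐ[𝒪] Keps 𝒪) (h0 : ∀ a, ksnd (φ a) = 0) {c : Gal → Ad0 (ResidueField 𝒪)}
    (hc : (fun σ => (rR σ).map φ) = liftMat r0 c) : c = 0 := by
  funext σ
  apply Subtype.ext
  have h1 : msnd ((rR σ).map φ) = (c σ : M2 (ResidueField 𝒪)) * (r0 σ : M2 (ResidueField 𝒪)) := by
    have := congrFun hc σ
    rw [liftMat_eq] at this
    rw [this, msnd_kmat]
  have h2 : msnd ((rR σ).map φ) = 0 := by
    ext i j
    exact h0 _
  rw [h2] at h1
  have h3 : (c σ : M2 (ResidueField 𝒪)) * (r0 σ : M2 (ResidueField 𝒪)) *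
      (((r0 σ)⁻¹ : GL (Fin 2) (ResidueField 𝒪)) : M2 (ResidueField 𝒪)) = 0 := by
    rw [← h1, zero_mul]
  rw [mul_assoc, ← Units.val_mul, mul_inv_cancel, Units.val_one, mul_one] at h3
  exact h3

end

variable {𝒪 : Type} [CommRing 𝒪] [IsDomain 𝒪] [IsDiscreteValuationRing 𝒪]
  [IsAdicComplete (maximalIdeal 𝒪) 𝒪] [Finite (ResidueField 𝒪)]

set_option maxHeartbeats 2000000 in
/-- **the tangent space theorem** -/
theorem tan_main (p : ℕ) [Fact p.Prime] (hp𝒪 : (p : 𝒪) ∈ maximalIdeal 𝒪)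
    {ρbar : ResidualGaloisRep (ResidueField 𝒪)}
    {𝒟 : ∀ ⦃A : Type⦄ [CommRing A] [IsLocalRing A] [Algebra 𝒪 A], GaloisRepAdic A → Prop}
    (DQ : GaloisRep.DeformationRingData 𝒪 ρbar 𝒟)
    (hdet : DQ.ρ.DetIsCyclotomic p)
    (hbc : ∀ (φ : DQ.R →ₐ[𝒪] Keps 𝒪) (hφ : IsLocalHom (φ : DQ.R →+* Keps 𝒪)),
      Function.Surjective φ → 𝒟 (DQ.ρ.baseChangeAlong (φ : DQ.R →+* Keps 𝒪) hφ))
    (r0 : Gal →* GL (Fin 2) (ResidueField 𝒪))
    (h0 : HasMatrixRes ρbar (fun σ => (r0 σ : M2 (ResidueField 𝒪))))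
    (r : ℕ) (Sel : AddSubgroup (H1 lvlQ (adRho r0))) [Finite Sel]
    (hSel : ∀ c : ↥(Z1 lvlQ (adRho r0)), IsType 𝒟 r0 (c : Gal → Ad0 (ResidueField 𝒪)) →
      H1.mk lvlQ (adRho r0) c ∈ Sel)
    (hcard : Nat.card Sel ≤ Nat.card (ResidueField 𝒪) ^ r) :
    ∃ γ : MvPowerSeries (Fin r) 𝒪 →ₐ[𝒪] DQ.R, Function.Surjective γ := by
  have hres := DQ.residue_surjective
  have hFr : HasMatrixRes ρbar (fun σ => ((frameOf r0).rt σ).map (residue 𝒪)) := by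
    rw [frameOf_map]; exact h0
  obtain ⟨rR, hrR, hstrict⟩ := exists_strict (frameOf r0) ρbar hFr DQ.ρ DQ.residual_isEquiv
  have hloc : ∀ φ : DQ.R →ₐ[𝒪] Keps 𝒪, IsLocalHom (φ : DQ.R →+* Keps 𝒪) :=
    fun φ => isLocalHom_of_algHom keps_residue_surjective φ
  have hmat : ∀ φ : DQ.R →ₐ[𝒪] Keps 𝒪,
      HasMatrix (DQ.ρ.baseChangeAlong (φ : DQ.R →+* Keps 𝒪) (hloc φ)) (fun σ => (rR σ).map φ) :=
    fun φ => hrR.baseChangeAlong (φ : DQ.R →+* Keps 𝒪) (hloc φ)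
  have hcoc : ∀ φ : DQ.R →ₐ[𝒪] Keps 𝒪, ∃ c : ↥(Z1 lvlQ (adRho r0)),
      (fun σ => (rR σ).map φ) = liftMat r0 (c : Gal → Ad0 (ResidueField 𝒪)) := fun φ =>
    exists_cocycle p hp𝒪 (hmat φ) (mfst_map_of_strict hstrict φ) (bc_det _ (hloc φ) hdet)
  choose c hc using hcoc
  have hmat' : ∀ φ : DQ.R →ₐ[𝒪] Keps 𝒪,
      HasMatrix (DQ.ρ.baseChangeAlong (φ : DQ.R →+* Keps 𝒪) (hloc φ))
        (liftMat r0 (c φ : Gal → Ad0 (ResidueField 𝒪))) := fun φ => by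
    rw [← hc φ]; exact hmat φ
  -- non surjective homomorphisms
  have hns : ∀ φ : DQ.R →ₐ[𝒪] Keps 𝒪, ¬ Function.Surjective φ → ∀ a, ksnd (φ a) = 0 := by
    intro φ hφ a
    by_contra ha
    exact hφ (surjective_of_ksnd_ne_zero hres φ ha)
  -- the classes lie in `Sel`
  have hmem : ∀ φ : DQ.R →ₐ[𝒪] Keps 𝒪, H1.mk lvlQ (adRho r0) (c φ) ∈ Sel := by
    intro φ
    by_cases hφ : Function.Surjective φ
    · exact hSel (c φ) ⟨_, hmat' φ, hbc φ (hloc φ) hφ⟩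
    · have h1 : (c φ : Gal → Ad0 (ResidueField 𝒪)) = 0 := cocycle_eq_zero φ (hns φ hφ) (hc φ)
      have h2 : c φ = 0 := Subtype.ext h1
      rw [h2, map_zero]
      exact Sel.zero_mem
  -- injectivity
  have huniq : ∀ φ ψ : DQ.R →ₐ[𝒪] Keps 𝒪, Function.Surjective φ →
      (DQ.ρ.baseChangeAlong (ψ : DQ.R →+* Keps 𝒪) (hloc ψ)).IsEquiv
        (DQ.ρ.baseChangeAlong (φ : DQ.R →+* Keps 𝒪) (hloc φ)) → φ = ψ := by
    intro φ ψ hφ hE
    have hU := DQ.universal (Keps 𝒪) keps_residue_surjective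
      (DQ.ρ.baseChangeAlong (φ : DQ.R →+* Keps 𝒪) (hloc φ)) (hbc φ (hloc φ) hφ)
      (residual_isEquiv_of_strict (frameOf r0) ρbar hFr _ _ (hmat φ) (isStrict_map hstrict φ))
    exact hU.unique ⟨hloc φ, ⟨GaloisRepAdic.Equiv.refl _⟩⟩ ⟨hloc ψ, hE⟩
  have hinj : Function.Injective (fun φ : DQ.R →ₐ[𝒪] Keps 𝒪 =>
      (⟨H1.mk lvlQ (adRho r0) (c φ), hmem φ⟩ : Sel)) := by
    intro φ ψ hφψ
    have h1 : H1.mk lvlQ (adRho r0) (c φ) = H1.mk lvlQ (adRho r0) (c ψ) :=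
      congrArg Subtype.val hφψ
    have h2 : H1.mk lvlQ (adRho r0) (c φ - c ψ) = 0 := by rw [map_sub, h1, sub_self]
    rw [H1.mk_eq_zero_iff] at h2
    obtain ⟨-, Y, hY⟩ := h2
    have hY' : ∀ σ, (c φ : Gal → Ad0 (ResidueField 𝒪)) σ - (c ψ : Gal → Ad0 (ResidueField 𝒪)) σ =
        adRho r0 σ Y - Y := fun σ => congrFun hY σ
    have hE := isEquiv_of_cohomologous (hmat' φ) (hmat' ψ) Y hY'
    by_cases hφ : Function.Surjective φ
    · obtain ⟨e⟩ := hE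
      exact huniq φ ψ hφ ⟨e.symm⟩
    · by_cases hψ : Function.Surjective ψ
      · exact (huniq ψ φ hψ hE).symm
      · apply AlgHom.ext
        intro a
        exact keps_ext (kfst_algHom_eq hres φ ψ a) (by rw [hns φ hφ a, hns ψ hψ a])
  haveI : Finite (DQ.R →ₐ[𝒪] Keps 𝒪) := Finite.of_injective _ hinj
  have hcard' : Nat.card (DQ.R →ₐ[𝒪] Keps 𝒪) ≤ Nat.card (ResidueField 𝒪) ^ r :=
    (Nat.card_le_card_of_injective _ hinj).trans hcard
  obtain ⟨x, hx⟩ := exists_gens_of_card hres r hcard'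
  exact exists_surjective_of_gens hres x hx

end Fermat.Agent.S56
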